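/-
Residues of algebraic numbers at a place.
-/
import Fermat.Agent.FlatBound.Ram.Field
import Fermat.Agent.GalRep.Model.BaseField

set_option autoImplicit false
set_option linter.unusedSectionVars false
set_option linter.style.haveILetI false

noncomputable section

namespace Fermat.Agent.FlatBound

open IsLocalRing
open Fermat.Agent.Galois (GQ)
open Fermat.Agent.NewVec

local notation "ℚb" => AlgebraicClosure ℚ

/-- The residue, extended by zero. -/
def res (A : ValuationSubring (AlgebraicClosure ℚ)) (x : AlgebraicClosure ℚ) : ResidueField A :=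
  open scoped Classical in if h : x ∈ A then residue A ⟨x, h⟩ else 0

variable {A : ValuationSubring (AlgebraicClosure ℚ)}

theorem res_coe (a : A) : res A (a : ℚb) = residue A a := by rw [res, dif_pos a.2]

theorem res_of_le {x : ℚb} (h : A.valuation x ≤ 1) :
    res A x = residue A ⟨x, (A.valuation_le_one_iff x).mp h⟩ :=
  res_coe (⟨x, (A.valuation_le_one_iff x).mp h⟩ : A)

theorem res_add {x y : ℚb} (hx : A.valuation x ≤ 1) (hy : A.valuation y ≤ 1) :
    res A (x + y) = res A x + res A y := by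
  rw [res_of_le hx, res_of_le hy, res_of_le ((A.valuation.map_add x y).trans (max_le hx hy)),
    ← map_add]
  rfl

theorem res_sub {x y : ℚb} (hx : A.valuation x ≤ 1) (hy : A.valuation y ≤ 1) :
    res A (x - y) = res A x - res A y := by
  rw [res_of_le hx, res_of_le hy, res_of_le ((A.valuation.map_sub x y).trans (max_le hx hy)),
    ← map_sub]
  rfl

theorem res_mul {x y : ℚb} (hx : A.valuation x ≤ 1) (hy : A.valuation y ≤ 1) :
    res A (x * y) = res A x * res A y := by
  have hxy : A.valuation (x * y) ≤ 1 := by rw [map_mul]; exact mul_le_one₀ hx zero_le hy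
  rw [res_of_le hx, res_of_le hy, res_of_le hxy, ← map_mul]
  rfl

theorem res_pow {x : ℚb} (hx : A.valuation x ≤ 1) (n : ℕ) : res A (x ^ n) = res A x ^ n := by
  have hxn : A.valuation (x ^ n) ≤ 1 := by rw [map_pow]; exact pow_le_one₀ zero_le hx
  rw [res_of_le hx, res_of_le hxn, ← map_pow]
  rfl

theorem res_natCast (n : ℕ) : res A (n : ℚb) = n := by
  rw [show (n : ℚb) = ((n : A) : ℚb) from (map_natCast A.subtype n).symm, res_coe, map_natCast]

theorem res_one : res A (1 : ℚb) = 1 := by simpa using res_natCast (A := A) 1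

theorem res_zero : res A (0 : ℚb) = 0 := by simpa using res_natCast (A := A) 0

theorem res_neg {x : ℚb} (hx : A.valuation x ≤ 1) : res A (-x) = -res A x := by
  rw [← zero_sub x, res_sub (by simp) hx, res_zero, zero_sub]

theorem res_eq_zero_iff {x : ℚb} (hx : A.valuation x ≤ 1) : res A x = 0 ↔ A.valuation x < 1 := by
  rw [res_of_le hx, residue_eq_zero_iff, ← ValuationSubring.coe_mem_nonunits_iff, A.mem_nonunits_iff]

theorem res_eq_res_iff {x y : ℚb} (hx : A.valuation x ≤ 1) (hy : A.valuation y ≤ 1) :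
    res A x = res A y ↔ A.valuation (x - y) < 1 := by
  rw [← sub_eq_zero, ← res_sub hx hy, res_eq_zero_iff ((A.valuation.map_sub x y).trans (max_le hx hy))]

theorem res_prod {α : Type*} (s : Finset α) {f : α → ℚb} (h : ∀ i ∈ s, A.valuation (f i) ≤ 1) :
    res A (∏ i ∈ s, f i) = ∏ i ∈ s, res A (f i) := by
  classical
  induction s using Finset.induction_on with
  | empty => simpa using res_one
  | insert a s ha ih =>
    rw [Finset.prod_insert ha, Finset.prod_insert ha, res_mul (h a (Finset.mem_insert_self a s)) ?_,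
      ih fun i hi => h i (Finset.mem_insert_of_mem hi)]
    rw [map_prod]
    exact Finset.prod_le_one' fun i hi => h i (Finset.mem_insert_of_mem hi)

theorem res_apply {σ : GQ} (hσ : σ ∈ A.decompositionSubgroup ℚ) {x : ℚb} (hx : A.valuation x ≤ 1) :
    res A (σ x) = (⟨σ, hσ⟩ : A.decompositionSubgroup ℚ) • res A x := by
  rw [res_of_le hx, Galois.residue_smul_eq hσ, ← res_coe]

theorem res_inertia {σ : GQ} (hσ : σ ∈ A.inertiaSubgroupIn ℚ) {x : ℚb} (hx : A.valuation x ≤ 1) :
    res A (σ x) = res A x := by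
  obtain ⟨τ, hτ, rfl⟩ := hσ
  change res A ((τ : GQ) x) = _
  rw [res_apply τ.2 hx]
  exact RingEquiv.congr_fun (MonoidHom.mem_ker.1 hτ) _

/-! ## Roots of unity of order prime to `p` -/

variable {p : ℕ} [Fact p.Prime] (hA : A.LiesOverPrime p)

include hA in
theorem charP_residue : CharP (ResidueField A) p :=
  (CharP.charP_iff_prime_eq_zero (Fact.out : p.Prime)).mpr (by
    rw [← map_natCast (residue A), residue_eq_zero_iff, ← ValuationSubring.coe_mem_nonunits_iff]
    simpa [ValuationSubring.LiesOverPrime] using hA)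

theorem val_root {n : ℕ} (hn : n ≠ 0) {x : ℚb} (h : x ^ n = 1) : A.valuation x = 1 :=
  (pow_eq_one_iff_of_nonneg zero_le hn).mp (by rw [← map_pow, h, map_one])

/-- Zero and the roots of unity of order prime to `p`: the multiplicative representatives. -/
def IsRep (p : ℕ) (r : AlgebraicClosure ℚ) : Prop := r = 0 ∨ ∃ n, ¬ p ∣ n ∧ r ^ n = 1

theorem IsRep.val_le {r : ℚb} (h : IsRep p r) : A.valuation r ≤ 1 := by
  rcases h with rfl | ⟨n, hn, hr⟩
  · simp
  · exact (val_root (n := n) (fun h => hn (h ▸ dvd_zero p)) hr).le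

include hA in
theorem IsRep.fixed {r : ℚb} (h : IsRep p r) {σ : GQ} (hσ : σ ∈ A.inertiaSubgroupIn ℚ) : σ r = r := by
  rcases h with rfl | ⟨n, hn, hr⟩
  · exact map_zero σ
  · exact fixed_of_pow_eq_one (Fact.out : p.Prime) hA hn hr hσ

include hA in
theorem exists_isRep (t : ResidueField A) : ∃ r, IsRep p r ∧ res A r = t := by
  by_cases ht : t = 0
  · exact ⟨0, Or.inl rfl, by rw [res_zero, ht]⟩
  · obtain ⟨y, hy, hres⟩ :=
      Fermat.Agent.GalRep.Model.exists_root_residue A (Fact.out : p.Prime) hA t ht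
    exact ⟨y, Or.inr hy, by rw [res_coe, hres]⟩

/-- Every representative is a `p`-th power of one. -/
theorem IsRep.exists_root {r : ℚb} (h : IsRep p r) : ∃ r', IsRep p r' ∧ r' ^ p = r := by
  rcases h with rfl | ⟨n, hn, hr⟩
  · exact ⟨0, Or.inl rfl, zero_pow (Fact.out : p.Prime).ne_zero⟩
  have hn0 : 0 < n := Nat.pos_of_ne_zero fun h => hn (h ▸ dvd_zero p)
  obtain ⟨k, -, hk⟩ := Nat.exists_mul_mod_eq_of_coprime 1
    ((Fact.out : p.Prime).coprime_iff_not_dvd.mpr hn) hn0.ne'
  refine ⟨r ^ k, Or.inr ⟨n, hn, by rw [← pow_mul, mul_comm, pow_mul, hr, one_pow]⟩, ?_⟩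
  rw [← pow_mul, mul_comm, pow_eq_pow_mod _ hr, hk, ← pow_eq_pow_mod _ hr, pow_one]

end Fermat.Agent.FlatBound
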