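/-
The tame extension of level two of the inertia field: its inertia elements and fixed numbers.
-/
import Fermat.Agent.FlatBound.Kummer.Res
import Fermat.Agent.FlatBound.Lift.Exp
import Fermat.Agent.GalRep.InertiaBase.Aut

set_option autoImplicit false
set_option linter.unusedSectionVars false
set_option linter.style.haveILetI false

noncomputable section

namespace Fermat.Agent.FlatBound

open IsLocalRing
open Fermat.Agent.Galois (GQ)
open Fermat.Agent.NewVec

local notation "ℚb" => AlgebraicClosure ℚ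

/-- The degree of the tame extension. -/
abbrev tdeg (p : ℕ) : ℕ := p * p - 1

theorem tdeg_eq (p : ℕ) : tdeg p = (p + 1) * (p - 1) := by
  show p * p - 1 = _
  rw [← sq, ← one_pow 2, Nat.sq_sub_sq, one_pow]

theorem add_one_lt_tdeg {p : ℕ} (hp : 3 ≤ p) : p + 1 < tdeg p := by
  rw [tdeg_eq]
  exact lt_mul_of_one_lt_right (Nat.succ_pos p) (by omega)

theorem tdeg_add_one {p : ℕ} (hp : 1 ≤ p) : tdeg p + 1 = p * p :=
  Nat.sub_add_cancel (Nat.mul_pos hp hp)

theorem not_dvd_tdeg {p : ℕ} (hp : p.Prime) : ¬ p ∣ tdeg p := fun h =>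
  hp.one_lt.ne' (Nat.dvd_one.mp ((Nat.dvd_add_right h).mp
    ((tdeg_add_one hp.one_lt.le).symm ▸ dvd_mul_right p p)))

/-- A root `π` of `X^(p²-1) + p`, an element of inertia moving it by a primitive root of unity, a
primitive `p`-th root of unity and a Frobenius element. -/
structure Setting (A : ValuationSubring (AlgebraicClosure ℚ)) (p : ℕ) where
  hA : A.LiesOverPrime p
  hp3 : 3 ≤ p
  pi : AlgebraicClosure ℚ
  pi_pow : pi ^ tdeg p = -(p : AlgebraicClosure ℚ)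
  zp : AlgebraicClosure ℚ
  hzp : IsPrimitiveRoot zp p
  z : AlgebraicClosure ℚ
  hz : IsPrimitiveRoot z (tdeg p)
  tau : GQ
  tau_mem : tau ∈ A.inertiaSubgroupIn ℚ
  tau_pi : tau pi = z * pi
  frob : GQ
  hfrob : A.IsFrobeniusAt frob p

variable {A : ValuationSubring (AlgebraicClosure ℚ)} {p : ℕ} [Fact p.Prime]

theorem nonempty_setting (hA : A.LiesOverPrime p) (hp3 : 3 ≤ p) : Nonempty (Setting A p) := by
  classical
  have hp : p.Prime := Fact.out
  have he0 : 0 < tdeg p := (add_one_lt_tdeg hp3).trans_le' (Nat.zero_le _)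
  haveI : NeZero (tdeg p) := ⟨he0.ne'⟩
  haveI : NeZero p := ⟨hp.ne_zero⟩
  obtain ⟨zp, hzp⟩ := HasEnoughRootsOfUnity.exists_primitiveRoot ℚb p
  obtain ⟨z, hz⟩ := HasEnoughRootsOfUnity.exists_primitiveRoot ℚb (tdeg p)
  obtain ⟨π, hπ⟩ := IsAlgClosed.exists_pow_nat_eq (-(p : ℚb)) he0
  obtain ⟨φ, hφ⟩ := Galois.exists_isFrobeniusAt hp hA
  have hπ0 : π ≠ 0 := fun h => by
    rw [h, zero_pow he0.ne', eq_comm, neg_eq_zero, Nat.cast_eq_zero] at hπ
    exact hp.ne_zero hπ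
  -- the orbit of `π` under inertia
  set O := ((Finset.range (tdeg p)).image fun k => z ^ k * π).filter
    fun y => ∃ σ ∈ A.inertiaSubgroupIn ℚ, σ π = y with hO
  have hroot : ∀ σ : GQ, σ π ∈ (Finset.range (tdeg p)).image fun k => z ^ k * π := fun σ => by
    have h : (σ π / π) ^ tdeg p = 1 := by
      rw [div_pow, ← map_pow, hπ, map_neg, map_natCast,
        div_self (neg_ne_zero.mpr (Nat.cast_ne_zero.mpr hp.ne_zero))]
    obtain ⟨k, hk, hke⟩ := hz.eq_pow_of_pow_eq_one h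
    exact Finset.mem_image.mpr ⟨k, Finset.mem_range.mpr hk, by rw [hke, div_mul_cancel₀ _ hπ0]⟩
  have hmemO : ∀ y, y ∈ O ↔ ∃ σ ∈ A.inertiaSubgroupIn ℚ, σ π = y := fun y => by
    rw [hO, Finset.mem_filter]
    exact ⟨fun h => h.2, fun h => ⟨by obtain ⟨σ, -, rfl⟩ := h; exact hroot σ, h⟩⟩
  have hfix : ∀ σ ∈ A.inertiaSubgroupIn ℚ, σ (∏ y ∈ O, y) = ∏ y ∈ O, y := by
    intro σ hσ
    have himg : O.image σ = O := by
      refine Finset.eq_of_subset_of_card_le ?_ (le_of_eq (Finset.card_image_of_injective _ σ.injective).symm)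
      intro y hy
      obtain ⟨w, hw, rfl⟩ := Finset.mem_image.mp hy
      obtain ⟨s, hs, rfl⟩ := (hmemO w).mp hw
      exact (hmemO _).mpr ⟨σ * s, mul_mem hσ hs, rfl⟩
    rw [map_prod]
    conv_rhs => rw [← himg, Finset.prod_image σ.injective.injOn]
  have hne : ∏ y ∈ O, y ≠ 0 := Finset.prod_ne_zero_iff.mpr fun y hy => by
    obtain ⟨σ, -, rfl⟩ := (hmemO y).mp hy
    exact (map_ne_zero σ).mpr hπ0
  obtain ⟨k, hk⟩ := exists_val_eq_zpow_of_fixed hp hA hfix hne
  have hvp : A.valuation π ^ tdeg p = A.valuation (p : ℚb) := by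
    rw [← map_pow, hπ, Valuation.map_neg]
  have hv0 : 0 < A.valuation π := zero_lt_iff.mpr ((map_ne_zero _).mpr hπ0)
  have hv1 : A.valuation π < 1 := (pow_lt_one_iff_of_nonneg zero_le he0.ne').mp
    (hvp.trans_lt (val_p_lt_one hA))
  rw [map_prod, Finset.prod_congr rfl (g := fun _ => A.valuation π) fun y hy => by
    obtain ⟨σ, hσ, rfl⟩ := (hmemO y).mp hy
    exact Galois.valuation_apply_eq (inertia_mem_decomposition hσ) _,
    Finset.prod_const, ← hvp, ← zpow_natCast, ← zpow_natCast _ (tdeg p), ← zpow_mul] at hk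
  have hdvd : tdeg p ∣ O.card := Int.natCast_dvd_natCast.mp
    ⟨k, (zpow_right_strictAnti₀ hv0 hv1).injective hk⟩
  have hOne : O.Nonempty := ⟨π, (hmemO π).mpr ⟨1, one_mem _, rfl⟩⟩
  have hsub : O ⊆ (Finset.range (tdeg p)).image fun k => z ^ k * π := Finset.filter_subset _ _
  have hOeq : O = (Finset.range (tdeg p)).image fun k => z ^ k * π :=
    Finset.eq_of_subset_of_card_le hsub
      ((Finset.card_image_le.trans (Finset.card_range _).le).trans
        (Nat.le_of_dvd hOne.card_pos hdvd))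
  obtain ⟨τ, hτ, hτπ⟩ := (hmemO (z * π)).mp (by
    rw [hOeq]
    refine Finset.mem_image.mpr ⟨1, Finset.mem_range.mpr ?_, by rw [pow_one]⟩
    exact (Nat.le_add_left 1 p).trans_lt (add_one_lt_tdeg hp3))
  exact ⟨{ hA := hA, hp3 := hp3, pi := π, pi_pow := hπ, zp := zp, hzp := hzp, z := z, hz := hz,
           tau := τ, tau_mem := hτ, tau_pi := hτπ, frob := φ, hfrob := hφ }⟩

namespace Setting

variable (S : Setting A p)

include S

theorem tdeg_pos : 0 < tdeg p := (Nat.zero_le _).trans_lt (add_one_lt_tdeg S.hp3)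

theorem pi_ne_zero : S.pi ≠ 0 := fun h => by
  have h1 := S.pi_pow
  rw [h, zero_pow S.tdeg_pos.ne', eq_comm, neg_eq_zero, Nat.cast_eq_zero] at h1
  exact (Fact.out : p.Prime).ne_zero h1

theorem val_pi_pow : A.valuation S.pi ^ tdeg p = A.valuation (p : ℚb) := by
  rw [← map_pow, S.pi_pow, Valuation.map_neg]

theorem val_pi_pos : 0 < A.valuation S.pi := zero_lt_iff.mpr ((map_ne_zero _).mpr S.pi_ne_zero)

theorem val_pi_lt_one : A.valuation S.pi < 1 :=
  (pow_lt_one_iff_of_nonneg zero_le S.tdeg_pos.ne').mp (S.val_pi_pow.trans_lt (val_p_lt_one S.hA))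

theorem pow_le_pow_iff {a b : ℕ} : A.valuation S.pi ^ a ≤ A.valuation S.pi ^ b ↔ b ≤ a :=
  (pow_right_strictAnti₀ S.val_pi_pos S.val_pi_lt_one).le_iff_ge

theorem pow_lt_pow_iff {a b : ℕ} : A.valuation S.pi ^ a < A.valuation S.pi ^ b ↔ b < a :=
  (pow_right_strictAnti₀ S.val_pi_pos S.val_pi_lt_one).lt_iff_gt

/-- The residue of the primitive root of unity. -/
theorem res_z_primitive : IsPrimitiveRoot (res A S.z) (tdeg p) := by
  have hv := val_root (A := A) S.tdeg_pos.ne' S.hz.pow_eq_one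
  refine ⟨by rw [← res_pow hv.le, S.hz.pow_eq_one, res_one], fun l hl => S.hz.dvd_of_pow_eq_one l ?_⟩
  rw [← res_pow hv.le, ← res_one (A := A),
    res_eq_res_iff (by rw [map_pow, hv, one_pow]) (by simp)] at hl
  exact eq_one_of_root_near S.hA (not_dvd_tdeg Fact.out)
    (by rw [← pow_mul, mul_comm, pow_mul, S.hz.pow_eq_one, one_pow]) hl

/-- Inertia elements fixing `π`. -/
def W : Subgroup GQ := A.inertiaSubgroupIn ℚ ⊓ MulAction.stabilizer GQ S.pi

theorem mem_W {σ : GQ} : σ ∈ S.W ↔ σ ∈ A.inertiaSubgroupIn ℚ ∧ σ S.pi = S.pi := Iff.rfl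

theorem W_inertia {σ : GQ} (h : σ ∈ S.W) : σ ∈ A.inertiaSubgroupIn ℚ := h.1

theorem W_dec {σ : GQ} (h : σ ∈ S.W) : σ ∈ A.decompositionSubgroup ℚ :=
  inertia_mem_decomposition h.1

theorem tau_dec : S.tau ∈ A.decompositionSubgroup ℚ := inertia_mem_decomposition S.tau_mem

theorem frob_dec : S.frob ∈ A.decompositionSubgroup ℚ := S.hfrob.mem_decompositionSubgroup

theorem fixed_z {σ : GQ} (hσ : σ ∈ A.inertiaSubgroupIn ℚ) : σ S.z = S.z :=
  fixed_of_pow_eq_one (Fact.out : p.Prime) S.hA (not_dvd_tdeg Fact.out) S.hz.pow_eq_one hσ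

theorem tau_pow_pi (k : ℕ) : (S.tau ^ k) S.pi = S.z ^ k * S.pi := by
  induction k with
  | zero => simp
  | succ k ih =>
    rw [pow_succ', AlgEquiv.mul_apply, ih, map_mul, map_pow, S.fixed_z S.tau_mem, S.tau_pi,
      pow_succ, mul_assoc]

theorem exists_pi_eq (σ : GQ) : ∃ k < tdeg p, σ S.pi = S.z ^ k * S.pi := by
  have h : (σ S.pi / S.pi) ^ tdeg p = 1 := by
    rw [div_pow, ← map_pow, S.pi_pow, map_neg, map_natCast,
      div_self (neg_ne_zero.mpr (Nat.cast_ne_zero.mpr (Fact.out : p.Prime).ne_zero))]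
  haveI : NeZero (tdeg p) := ⟨S.tdeg_pos.ne'⟩
  obtain ⟨k, hk, hke⟩ := S.hz.eq_pow_of_pow_eq_one h
  exact ⟨k, hk, by rw [hke, div_mul_cancel₀ _ S.pi_ne_zero]⟩

/-- Inertia is generated by the fixer of `π` and `τ`. -/
theorem exists_pow_mul {σ : GQ} (hσ : σ ∈ A.inertiaSubgroupIn ℚ) :
    ∃ k < tdeg p, ∃ w ∈ S.W, σ = S.tau ^ k * w := by
  obtain ⟨k, hk, hke⟩ := S.exists_pi_eq σ
  refine ⟨k, hk, (S.tau ^ k)⁻¹ * σ, ⟨mul_mem ((A.inertiaSubgroupIn ℚ).inv_mem ((A.inertiaSubgroupIn ℚ).pow_mem S.tau_mem k)) hσ, ?_⟩,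
    (mul_inv_cancel_left _ _).symm⟩
  show ((S.tau ^ k)⁻¹ * σ) S.pi = S.pi
  rw [AlgEquiv.mul_apply, hke, ← S.tau_pow_pi k]
  exact AlgEquiv.symm_apply_apply _ _

theorem conj_mem_W {s w : GQ} (hs : s ∈ A.decompositionSubgroup ℚ) (hw : w ∈ S.W) :
    s * w * s⁻¹ ∈ S.W := by
  refine ⟨conj_mem_inertia hs hw.1, ?_⟩
  obtain ⟨k, -, hk⟩ := S.exists_pi_eq s⁻¹
  show (s * w * s⁻¹) S.pi = S.pi
  rw [AlgEquiv.mul_apply, AlgEquiv.mul_apply, hk, map_mul, map_pow, S.fixed_z hw.1,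
    (S.mem_W.mp hw).2, ← hk]
  exact AlgEquiv.apply_symm_apply _ _

theorem conj_mem_W' {s w : GQ} (hs : s ∈ A.decompositionSubgroup ℚ) (hw : w ∈ S.W) :
    s⁻¹ * w * s ∈ S.W := by simpa using S.conj_mem_W (inv_mem hs) hw

theorem tau_pow_tdeg : S.tau ^ tdeg p ∈ S.W :=
  ⟨pow_mem S.tau_mem _, by
    show (S.tau ^ tdeg p) S.pi = S.pi
    rw [S.tau_pow_pi, S.hz.pow_eq_one, one_mul]⟩

theorem frob_z : S.frob S.z = S.z ^ p := by
  have hv := val_root (A := A) S.tdeg_pos.ne' S.hz.pow_eq_one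
  let a : A := ⟨S.z, (A.valuation_le_one_iff _).mp hv.le⟩
  have ha : a ^ tdeg p = 1 := Subtype.ext S.hz.pow_eq_one
  obtain ⟨hdec, hfr⟩ := S.hfrob
  have h : (⟨S.frob, hdec⟩ : A.decompositionSubgroup ℚ) • a = a ^ p := by
    refine GalRep.pow_eq_of_residue_eq (Fact.out : p.Prime) S.hA (not_dvd_tdeg Fact.out) ?_ ?_ ?_
    · rw [← smul_pow', ha, smul_one]
    · rw [← pow_mul, mul_comm, pow_mul, ha, one_pow]
    · rw [map_pow, ← hfr]
      exact ResidueField.residue_smul _ _ _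
  exact congrArg Subtype.val h

/-- The conjugate of `τ` by Frobenius is its `p`-th power up to the fixer of `π`. -/
theorem frob_conj : ∃ w ∈ S.W, S.frob * S.tau * S.frob⁻¹ = S.tau ^ p * w := by
  refine ⟨(S.tau ^ p)⁻¹ * (S.frob * S.tau * S.frob⁻¹), ⟨mul_mem ((A.inertiaSubgroupIn ℚ).inv_mem
    ((A.inertiaSubgroupIn ℚ).pow_mem S.tau_mem p))
    (conj_mem_inertia S.frob_dec S.tau_mem), ?_⟩, (mul_inv_cancel_left _ _).symm⟩
  obtain ⟨k, -, hk⟩ := S.exists_pi_eq S.frob⁻¹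
  show ((S.tau ^ p)⁻¹ * (S.frob * S.tau * S.frob⁻¹)) S.pi = S.pi
  have h1 : (S.frob * S.tau * S.frob⁻¹) S.pi = S.z ^ p * S.pi := by
    rw [AlgEquiv.mul_apply, AlgEquiv.mul_apply, hk, map_mul, map_pow, S.fixed_z S.tau_mem, S.tau_pi,
      mul_left_comm, ← hk, map_mul, S.frob_z]
    congr 1
    exact AlgEquiv.apply_symm_apply _ _
  rw [AlgEquiv.mul_apply, h1, ← S.tau_pow_pi p]
  exact AlgEquiv.symm_apply_apply _ _

/-- The numbers fixed by `W` have the valuations of the powers of `π`. -/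
theorem exists_val_eq {x : ℚb} (hx : ∀ w ∈ S.W, w x = x) (hx0 : x ≠ 0) :
    ∃ m : ℤ, A.valuation x = A.valuation S.pi ^ m := by
  set N := ∏ k ∈ Finset.range (tdeg p), (S.tau ^ k) x with hN
  have hfix : ∀ σ ∈ A.inertiaSubgroupIn ℚ, σ N = N := by
    intro σ hσ
    obtain ⟨j, -, w, hw, rfl⟩ := S.exists_pow_mul hσ
    have hwk : ∀ k, (w * S.tau ^ k) x = (S.tau ^ k) x := fun k => by
      have := hx _ (S.conj_mem_W' (pow_mem S.tau_dec k) hw)
      rw [AlgEquiv.mul_apply, AlgEquiv.mul_apply] at this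
      conv_rhs => rw [← this]
      exact (AlgEquiv.apply_symm_apply _ _).symm
    have hper : (S.tau ^ tdeg p) x = x := hx _ S.tau_pow_tdeg
    have hshift : S.tau N = N := by
      have h := Finset.prod_range_succ' (fun k => (S.tau ^ k) x) (tdeg p)
      rw [Finset.prod_range_succ, pow_zero, hper] at h
      rw [hN, map_prod]
      refine Eq.trans ?_ (mul_right_cancel₀ hx0 h).symm
      exact Finset.prod_congr rfl fun k _ => by rw [pow_succ', AlgEquiv.mul_apply]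
    have hwN : w N = N := by
      rw [hN, map_prod]
      exact Finset.prod_congr rfl fun k _ => hwk k
    rw [AlgEquiv.mul_apply, hwN]
    clear hwN hwk hσ
    induction j with
    | zero => rfl
    | succ j ih => rw [pow_succ, AlgEquiv.mul_apply, hshift, ih]
  obtain ⟨m, hm⟩ := exists_val_eq_zpow_of_fixed (Fact.out : p.Prime) S.hA hfix
    (Finset.prod_ne_zero_iff.mpr fun k _ => (map_ne_zero _).mpr hx0)
  refine ⟨m, ?_⟩
  rw [hN, map_prod, Finset.prod_congr rfl fun k _ =>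
    Galois.valuation_apply_eq (pow_mem S.tau_dec k) x, Finset.prod_const, Finset.card_range,
    ← S.val_pi_pow, ← zpow_natCast _ (tdeg p), ← zpow_natCast _ (tdeg p), ← zpow_mul,
    mul_comm, zpow_mul] at hm
  rw [zpow_natCast, zpow_natCast] at hm
  exact (pow_left_inj₀ zero_le zero_le S.tdeg_pos.ne').mp hm

theorem le_succ_of_lt {x : ℚb} (hx : ∀ w ∈ S.W, w x = x) {m : ℕ}
    (h : A.valuation x < A.valuation S.pi ^ m) : A.valuation x ≤ A.valuation S.pi ^ (m + 1) := by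
  rcases eq_or_ne x 0 with rfl | hx0
  · rw [map_zero]; exact zero_le
  obtain ⟨k, hk⟩ := S.exists_val_eq hx hx0
  rw [hk, ← zpow_natCast] at h ⊢
  have hanti := zpow_right_strictAnti₀ S.val_pi_pos S.val_pi_lt_one
  exact hanti.le_iff_ge.mpr (by have := hanti.lt_iff_gt.mp h; push_cast; omega)

theorem fixed_rep {r : ℚb} (hr : IsRep p r) {w : GQ} (hw : w ∈ S.W) : w r = r :=
  hr.fixed S.hA hw.1

/-- The leading term of a number fixed by `W`. -/
theorem exists_lead {x : ℚb} (hx : ∀ w ∈ S.W, w x = x) {m : ℕ}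
    (h : A.valuation x ≤ A.valuation S.pi ^ m) :
    ∃ r, IsRep p r ∧ A.valuation (x - r * S.pi ^ m) ≤ A.valuation S.pi ^ (m + 1) := by
  obtain ⟨r, hr, hres⟩ := exists_isRep S.hA (res A (x / S.pi ^ m))
  refine ⟨r, hr, S.le_succ_of_lt (fun w hw => by
    rw [map_sub, map_mul, map_pow, hx w hw, (S.mem_W.mp hw).2, S.fixed_rep hr hw]) ?_⟩
  have hpos : 0 < A.valuation S.pi ^ m := pow_pos S.val_pi_pos m
  have h1 : A.valuation (x / S.pi ^ m) ≤ 1 := by
    rw [map_div₀, map_pow, div_le_one₀ hpos]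
    exact h
  have h2 : A.valuation (x / S.pi ^ m - r) < 1 :=
    (res_eq_res_iff h1 hr.val_le).mp hres.symm
  rw [show x - r * S.pi ^ m = (x / S.pi ^ m - r) * S.pi ^ m by
    rw [sub_mul, div_mul_cancel₀ _ (pow_ne_zero m S.pi_ne_zero)], map_mul, map_pow]
  exact mul_lt_of_lt_one_left hpos h2

/-! ## The roots of unity of order `p` -/

theorem val_zp_pow : A.valuation (S.zp - 1) ^ (p - 1) = A.valuation (p : ℚb) := by
  classical
  haveI : NeZero p := ⟨(Fact.out : p.Prime).ne_zero⟩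
  have hp : p.Prime := Fact.out
  have hv : ∀ k ∈ Finset.Ico 1 p, A.valuation (1 - S.zp ^ k) = A.valuation (S.zp - 1) := by
    intro k hk
    obtain ⟨hk1, hkp⟩ := Finset.mem_Ico.mp hk
    have hcop : k.Coprime p := (Nat.coprime_of_lt_prime (by omega) hkp hp).symm
    rw [Valuation.map_sub_swap]
    refine le_antisymm ?_ ?_
    · rw [← geom_sum_mul S.zp k, map_mul]
      exact mul_le_of_le_one_left' (A.valuation.map_sum_le fun i _ => by
        rw [map_pow, val_root hp.ne_zero S.hzp.pow_eq_one, one_pow])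
    · obtain ⟨j, -, hj⟩ := Nat.exists_mul_mod_eq_of_coprime 1 hcop hp.ne_zero
      have hz1 : (S.zp ^ k) ^ j = S.zp := by
        rw [← pow_mul, pow_eq_pow_mod _ S.hzp.pow_eq_one, hj, ← pow_eq_pow_mod _ S.hzp.pow_eq_one,
          pow_one]
      conv_lhs => rw [← hz1, ← geom_sum_mul (S.zp ^ k) j, map_mul]
      exact mul_le_of_le_one_left' (A.valuation.map_sum_le fun i _ => by
        rw [map_pow, map_pow, val_root hp.ne_zero S.hzp.pow_eq_one, one_pow, one_pow])
  obtain ⟨n, rfl⟩ : ∃ n, p = n + 1 := ⟨p - 1, by have := hp.pos; omega⟩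
  have h := S.hzp.prod_one_sub_pow_eq_order
  rw [Nat.add_sub_cancel, Nat.cast_add, Nat.cast_one, ← h, map_prod]
  rw [Finset.prod_congr rfl (g := fun _ => A.valuation (S.zp - 1)) fun k hk => hv (k + 1)
    (Finset.mem_Ico.mpr ⟨Nat.le_add_left 1 k, Nat.succ_lt_succ (Finset.mem_range.mp hk)⟩),
    Finset.prod_const, Finset.card_range]

theorem val_zp : A.valuation (S.zp - 1) = A.valuation S.pi ^ (p + 1) := by
  have hp : p.Prime := Fact.out
  refine (pow_left_inj₀ zero_le zero_le (Nat.sub_ne_zero_of_lt hp.one_lt)).mp ?_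
  rw [S.val_zp_pow, ← pow_mul, ← tdeg_eq, S.val_pi_pow]

theorem res_zp_pow_sub (b : ℕ) : res A ((S.zp ^ b - 1) / (S.zp - 1)) = b := by
  have hp : p.Prime := Fact.out
  have hne : S.zp - 1 ≠ 0 := sub_ne_zero.mpr (S.hzp.ne_one hp.one_lt)
  have hz : A.valuation S.zp = 1 := val_root hp.ne_zero S.hzp.pow_eq_one
  rw [← geom_sum_mul, mul_div_assoc, div_self hne, mul_one]
  induction b with
  | zero => simpa using res_zero (A := A)
  | succ b ih =>
    rw [Finset.sum_range_succ, res_add (A.valuation.map_sum_le fun i _ => by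
      rw [map_pow, hz, one_pow]) (by rw [map_pow, hz, one_pow]), ih, res_pow hz.le,
      show res A S.zp = 1 by
        rw [← res_one (A := A), res_eq_res_iff hz.le (by simp), S.val_zp]
        exact pow_lt_one₀ zero_le S.val_pi_lt_one (Nat.succ_ne_zero p),
      one_pow, Nat.cast_add, Nat.cast_one]

/-- An inertia element raises `ζ` to a power congruent to the power of its action on `π`. -/
theorem res_exponent {σ : GQ} (hσ : σ ∈ A.inertiaSubgroupIn ℚ) {a k : ℕ}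
    (ha : σ S.zp = S.zp ^ a) (hk : σ S.pi = S.z ^ k * S.pi) :
    (a : ResidueField A) = res A S.z ^ ((p + 1) * k) := by
  obtain ⟨τ, hτ, rfl⟩ := hσ
  have hp : p.Prime := Fact.out
  have hne : S.zp - 1 ≠ 0 := sub_ne_zero.mpr (S.hzp.ne_one hp.one_lt)
  have hpk : S.pi ^ (p + 1) ≠ 0 := pow_ne_zero _ S.pi_ne_zero
  have h := Galois.tameChar_congr hτ hne hpk (by rw [S.val_zp, map_pow])
  rw [Galois.tameChar, Galois.tameChar, ← res_coe, ← res_coe] at h
  change res A ((τ : GQ) (S.zp - 1) / (S.zp - 1)) = res A ((τ : GQ) (S.pi ^ (p + 1)) / S.pi ^ (p + 1)) at h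
  change (τ : GQ) S.zp = _ at ha
  change (τ : GQ) S.pi = _ at hk
  rw [map_sub, map_one, ha, S.res_zp_pow_sub, map_pow, hk, mul_pow, mul_div_assoc, div_self hpk,
    mul_one, ← pow_mul, res_pow (val_root S.tdeg_pos.ne' S.hz.pow_eq_one).le] at h
  rw [h, mul_comm]

theorem W_fix_zp {w : GQ} (hw : w ∈ S.W) : w S.zp = S.zp := by
  haveI : CharP (ResidueField A) p := charP_residue S.hA
  haveI : NeZero p := ⟨(Fact.out : p.Prime).ne_zero⟩
  obtain ⟨a, ha, hae⟩ := S.hzp.eq_pow_of_pow_eq_one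
    (show (w S.zp) ^ p = 1 by rw [← map_pow, S.hzp.pow_eq_one, map_one])
  have h := S.res_exponent hw.1 hae.symm (k := 0) (by rw [pow_zero, one_mul]; exact hw.2)
  rw [mul_zero, pow_zero, ← Nat.cast_one, CharP.natCast_eq_natCast (ResidueField A) p] at h
  rw [← hae, ← Nat.mod_eq_of_lt ha, h, Nat.mod_eq_of_lt (Fact.out : p.Prime).one_lt, pow_one]

end Setting

end Fermat.Agent.FlatBound
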