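/-
A character of `W` trivial on a flat module moves some number of its kernel field little.
-/
import Fermat.Agent.FlatBound.Ram.Main
import Fermat.Agent.FlatBound.Kummer.Base

set_option autoImplicit false
set_option linter.unusedSectionVars false
set_option linter.style.haveILetI false

noncomputable section

namespace Fermat.Agent.FlatBound

open Polynomial hiding X
open Fermat.Agent.Galois (GQ)
open Fermat.Agent.NewVec Fermat.Agent.GalRep.InertiaBase

local notation "ℚb" => AlgebraicClosure ℚ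

/-- Coefficients of a product of factors with roots of bounded size. -/
theorem val_coeff_prod_le {A : ValuationSubring (AlgebraicClosure ℚ)} {c : A.ValueGroup}
    (s : Finset ℚb) (h : ∀ η ∈ s, A.valuation η ≤ c) : ∀ m : ℕ,
    A.valuation ((∏ η ∈ s, (Polynomial.X - C η)).coeff m) * c ^ m ≤ c ^ s.card := by
  classical
  induction s using Finset.induction_on with
  | empty =>
    intro m
    rcases m with _ | m <;> simp [coeff_one]
  | insert a s ha ih =>
    intro m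
    have ih := ih fun η hη => h η (Finset.mem_insert_of_mem hη)
    have hac := h a (Finset.mem_insert_self a s)
    set P := ∏ η ∈ s, (Polynomial.X - C η)
    rw [Finset.prod_insert ha, Finset.card_insert_of_notMem ha, pow_succ']
    rcases m with _ | m
    · rw [mul_coeff_zero, coeff_sub, Polynomial.coeff_X_zero, coeff_C_zero, zero_sub, map_mul, Valuation.map_neg,
        mul_assoc]
      exact mul_le_mul' hac (ih 0)
    · rw [sub_mul, coeff_sub, coeff_X_mul, coeff_C_mul]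
      refine (mul_le_mul' (A.valuation.map_sub _ _) le_rfl).trans ?_
      rcases max_choice (A.valuation (P.coeff m)) (A.valuation (a * P.coeff (m + 1))) with hm | hm <;>
        rw [hm]
      · rw [pow_succ', mul_left_comm]
        exact mul_le_mul' le_rfl (ih m)
      · rw [map_mul, mul_assoc]
        exact mul_le_mul' hac (ih (m + 1))

variable {A : ValuationSubring (AlgebraicClosure ℚ)} {p : ℕ} [Fact p.Prime]

/-- `χ` is additive on `W`. -/
def AddOnW (S : Setting A p) (χ : GQ → ZMod p) : Prop :=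
  ∀ a ∈ S.W, ∀ b ∈ S.W, χ (a * b) = χ a + χ b

theorem AddOnW.one {S : Setting A p} {χ : GQ → ZMod p} (h : AddOnW S χ) : χ 1 = 0 := by
  have := h 1 (one_mem _) 1 (one_mem _)
  rwa [one_mul, left_eq_add] at this

theorem AddOnW.inv {S : Setting A p} {χ : GQ → ZMod p} (h : AddOnW S χ) {a : GQ} (ha : a ∈ S.W) :
    χ a⁻¹ = -χ a := by
  have := h a ha a⁻¹ (inv_mem ha)
  rw [mul_inv_cancel, h.one, eq_comm] at this
  exact eq_neg_of_add_eq_zero_right this

theorem AddOnW.pow {S : Setting A p} {χ : GQ → ZMod p} (h : AddOnW S χ) {a : GQ} (ha : a ∈ S.W) :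
    ∀ k : ℕ, χ (a ^ k) = k * χ a
  | 0 => by rw [pow_zero, h.one, Nat.cast_zero, zero_mul]
  | k + 1 => by rw [pow_succ, h _ (pow_mem ha k) a ha, h.pow ha k, Nat.cast_succ, add_one_mul]

variable (S : Setting A p) {M : Type} [AddCommGroup M] [Finite M] [DistribMulAction GQ M]

/-- Moving the `k`-th power moves at most as much as moving once. -/
theorem val_pow_div_sub_one_le {g : GQ} (hg : g ∈ A.decompositionSubgroup ℚ) {x : ℚb} (hx : x ≠ 0) :
    ∀ k : ℕ, A.valuation ((g ^ k) x / x - 1) ≤ A.valuation (g x / x - 1) := by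
  intro k
  induction k with
  | zero => simp [hx]
  | succ k ih =>
    have h : (g ^ (k + 1)) x / x - 1 = g ((g ^ k) x / x - 1) * (g x / x) + (g x / x - 1) := by
      rw [pow_succ', AlgEquiv.mul_apply, map_sub, map_one, map_div₀, sub_mul, one_mul,
        div_mul_div_cancel₀ ((_root_.map_ne_zero _).mpr hx)]
      ring
    rw [h]
    refine (A.valuation.map_add _ _).trans (max_le ?_ le_rfl)
    rw [map_mul, Galois.valuation_apply_eq hg, map_div₀, Galois.valuation_apply_eq hg,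
      div_self ((_root_.map_ne_zero A.valuation).mpr hx), mul_one]
    exact ih

theorem exists_break (X : Chart A M) (hp : ∀ x : M, p • x = 0) {χ : GQ → ZMod p} (hadd : AddOnW S χ)
    (hker : ∀ σ ∈ S.W, (∀ x : M, σ • x = x) → χ σ = 0) {g : GQ} (hg : g ∈ S.W) (hχg : χ g = 1) :
    ∃ x : ℚb, x ≠ 0 ∧ (∀ h ∈ S.W, χ h = 0 → h x = x) ∧
      A.valuation (p : ℚb) ≤ A.valuation (g x / x - 1) ^ (p * (p - 1)) := by
  classical
  have hpp : p.Prime := Fact.out
  set v := A.valuation with hv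
  set ξ := unif (p := p) S.hA X.splitFld with hξ
  set O := orbit (p := p) S.hA X.splitFld with hO
  have hW : ∀ σ ∈ S.W, σ ξ = ξ → χ σ = 0 := fun σ hσ h =>
    hker σ hσ fun x => X.fix_of_unif S.hA hσ.1 h x
  have hgpow : ∀ (a : ℕ) {h : GQ}, h ∈ S.W → χ h = 0 → χ (g ^ a * h) = a := fun a h hh h0 => by
    rw [hadd _ (pow_mem hg a) h hh, hadd.pow hg, hχg, h0, mul_one, add_zero]
  set OH := O.filter fun η => ∃ h ∈ S.W, χ h = 0 ∧ h ξ = η with hOH
  have hξOH : ξ ∈ OH := Finset.mem_filter.mpr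
    ⟨unif_mem_orbit S.hA, 1, one_mem _, hadd.one, rfl⟩
  let Oa : ℕ → Finset ℚb := fun a => OH.image (g ^ a)
  have hOaO : ∀ a, Oa a ⊆ O := fun a η hη => by
    obtain ⟨θ, hθ, rfl⟩ := Finset.mem_image.mp hη
    exact apply_mem_orbit S.hA (pow_mem hg a : g ^ a ∈ S.W).1 (Finset.mem_filter.mp hθ).1
  have hOa_eq : ∀ a b, ∀ η ∈ Oa a, η ∈ Oa b → (a : ZMod p) = b := by
    intro a b η ha hb
    obtain ⟨θ, hθ, rfl⟩ := Finset.mem_image.mp ha
    obtain ⟨θ', hθ', he⟩ := Finset.mem_image.mp hb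
    obtain ⟨-, h, hh, hh0, rfl⟩ := Finset.mem_filter.mp hθ
    obtain ⟨-, h', hh', hh0', rfl⟩ := Finset.mem_filter.mp hθ'
    have hm : (g ^ b * h')⁻¹ * (g ^ a * h) ∈ S.W :=
      mul_mem (inv_mem (mul_mem (pow_mem hg b) hh')) (mul_mem (pow_mem hg a) hh)
    have h1 := hW _ hm (by
      rw [AlgEquiv.mul_apply, AlgEquiv.mul_apply, ← he]
      exact (g ^ b * h').symm_apply_apply ξ)
    rw [hadd _ (inv_mem (mul_mem (pow_mem hg b) hh')) _ (mul_mem (pow_mem hg a) hh),
      hadd.inv (mul_mem (pow_mem hg b) hh'), hgpow b hh' hh0', hgpow a hh hh0, neg_add_eq_zero] at h1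
    exact h1.symm
  have hξOa : ∀ a ∈ Finset.Ico 1 p, ξ ∉ Oa a := fun a ha hmem => by
    have h := hOa_eq a 0 ξ hmem (Finset.mem_image.mpr ⟨ξ, hξOH, by rw [pow_zero]; rfl⟩)
    rw [Nat.cast_zero, CharP.cast_eq_zero_iff (ZMod p) p] at h
    exact (Nat.le_of_dvd (Finset.mem_Ico.mp ha).1 h).not_gt (Finset.mem_Ico.mp ha).2
  have hvξ : 0 < v ξ := zero_lt_iff.mpr (val_unif_ne_zero S.hA)
  let δ : ℚb → A.ValueGroup := fun η => v (η - ξ) / v ξ
  have hδ : ∀ η ∈ O, δ η ≤ 1 := fun η hη => by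
    rw [div_le_one₀ hvξ]
    exact (v.map_sub _ _).trans (max_le (val_orbit S.hA hη).le le_rfl)
  -- the coefficients
  set f := ∏ η ∈ OH, (Polynomial.X - C η) with hf
  have hOHim : ∀ h ∈ S.W, χ h = 0 → OH.image h = OH := fun h hh h0 => by
    refine Finset.eq_of_subset_of_card_le ?_ (le_of_eq (Finset.card_image_of_injective _ h.injective).symm)
    intro η hη
    obtain ⟨θ, hθ, rfl⟩ := Finset.mem_image.mp hη
    obtain ⟨hθO, h', hh', h0', rfl⟩ := Finset.mem_filter.mp hθ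
    exact Finset.mem_filter.mpr ⟨apply_mem_orbit S.hA hh.1 hθO, h * h', mul_mem hh hh',
      by rw [hadd h hh h' hh', h0, h0', add_zero], rfl⟩
  have hmap : ∀ σ : GQ, f.map (σ : ℚb →+* ℚb) = ∏ η ∈ OH, (Polynomial.X - C (σ η)) := fun σ => by
    rw [hf, Polynomial.map_prod]
    simp only [Polynomial.map_sub, map_X, map_C]
    rfl
  have hcoeff : ∀ m, ∀ h ∈ S.W, χ h = 0 → h (f.coeff m) = f.coeff m := fun m h hh h0 => by
    have h1 : f.map (h : ℚb →+* ℚb) = f := by
      rw [hmap]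
      conv_rhs => rw [hf, ← hOHim h hh h0, Finset.prod_image h.injective.injOn]
    conv_rhs => rw [← h1, coeff_map]
    rfl
  have hxa : ∀ a ∈ Finset.Ico 1 p, ∃ x : ℚb, x ≠ 0 ∧ (∀ h ∈ S.W, χ h = 0 → h x = x) ∧
      ∏ η ∈ Oa a, δ η ≤ v (g x / x - 1) := by
    intro a ha
    have hdeg : f.natDegree = OH.card := natDegree_finsetProd_X_sub_C_eq_card _ _
    have hdeg' : (f.map ((g ^ a : GQ) : ℚb →+* ℚb)).natDegree = OH.card := by
      rw [natDegree_map, hdeg]
    have h1 : ∏ η ∈ OH, (ξ - (g ^ a) η) =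
        ∑ m ∈ Finset.range (OH.card + 1), ((g ^ a) (f.coeff m) - f.coeff m) * ξ ^ m := by
      have h0 : ∑ m ∈ Finset.range (OH.card + 1), f.coeff m * ξ ^ m = 0 := by
        rw [← hdeg, ← eval_eq_sum_range, hf, eval_prod]
        exact Finset.prod_eq_zero hξOH (by simp)
      have h2 : ∑ m ∈ Finset.range (OH.card + 1), (g ^ a) (f.coeff m) * ξ ^ m =
          ∏ η ∈ OH, (ξ - (g ^ a) η) := by
        have h3 := (eval_eq_sum_range (p := f.map ((g ^ a : GQ) : ℚb →+* ℚb)) ξ).symm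
        rw [hdeg'] at h3
        simp only [coeff_map] at h3
        refine h3.trans ?_
        rw [hmap, eval_prod]
        simp
      simp only [sub_mul, Finset.sum_sub_distrib, h0, h2, sub_zero]
    have hne : ∏ η ∈ OH, (ξ - (g ^ a) η) ≠ 0 := Finset.prod_ne_zero_iff.mpr fun η hη =>
      sub_ne_zero.mpr fun h => hξOa a ha (Finset.mem_image.mpr ⟨η, hη, h.symm⟩)
    obtain ⟨m, -, hm⟩ := (Finset.range (OH.card + 1)).exists_max_image
      (fun m => v (((g ^ a) (f.coeff m) - f.coeff m) * ξ ^ m)) ⟨0, by simp⟩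
    have hle : v (∏ η ∈ OH, (ξ - (g ^ a) η)) ≤ v (((g ^ a) (f.coeff m) - f.coeff m) * ξ ^ m) := by
      rw [h1]
      exact v.map_sum_le hm
    have hcm : f.coeff m ≠ 0 := fun h => by
      rw [h, map_zero, sub_zero, zero_mul, map_zero, le_zero_iff, _root_.map_eq_zero] at hle
      exact hne hle
    refine ⟨f.coeff m, hcm, hcoeff m, le_trans ?_ (val_pow_div_sub_one_le (S.W_dec hg) hcm a)⟩
    have hc := val_coeff_prod_le (A := A) (c := v ξ) OH
      (fun η hη => (val_orbit S.hA (Finset.mem_filter.mp hη).1).le) m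
    rw [← hf] at hc
    have hprod : ∏ η ∈ Oa a, δ η = v (∏ η ∈ OH, (ξ - (g ^ a) η)) / v ξ ^ OH.card := by
      rw [Finset.prod_image (g ^ a).injective.injOn, map_prod]
      simp only [δ, Finset.prod_div_distrib, Finset.prod_const, Valuation.map_sub_swap]
    rw [hprod, div_le_iff₀ (pow_pos hvξ _)]
    refine hle.trans ?_
    rw [map_mul, map_pow, ← hv, div_sub_one hcm, map_div₀]
    calc v ((g ^ a) (f.coeff m) - f.coeff m) * v ξ ^ m
        = v ((g ^ a) (f.coeff m) - f.coeff m) / v (f.coeff m) * (v (f.coeff m) * v ξ ^ m) := by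
          rw [← mul_assoc, div_mul_cancel₀ _ ((_root_.map_ne_zero v).mpr hcm)]
      _ ≤ _ := mul_le_mul' le_rfl hc
  choose! x hx0 hxfix hxle using hxa
  obtain ⟨a₀, ha₀, hmax⟩ := (Finset.Ico 1 p).exists_max_image (fun a => v (g (x a) / x a - 1))
    ⟨1, Finset.mem_Ico.mpr ⟨le_rfl, hpp.one_lt⟩⟩
  refine ⟨x a₀, hx0 a₀ ha₀, hxfix a₀ ha₀, ?_⟩
  set D := v (g (x a₀) / x a₀ - 1) with hD
  have hle : ∀ a ∈ Finset.Ico 1 p, ∏ η ∈ Oa a, δ η ≤ D := fun a ha => (hxle a ha).trans (hmax a ha)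
  -- the smallest displacement
  have h1mem : 1 ∈ Finset.Ico 1 p := Finset.mem_Ico.mpr ⟨le_rfl, hpp.one_lt⟩
  have hne1 : (O \ {ξ}).Nonempty := ⟨g ξ, Finset.mem_sdiff.mpr ⟨apply_mem_orbit S.hA hg.1
    (unif_mem_orbit S.hA), Finset.notMem_singleton.mpr fun h =>
      one_ne_zero (hχg.symm.trans (hW g hg h))⟩⟩
  obtain ⟨η₁, hη₁, hmin⟩ := (O \ {ξ}).exists_min_image δ hne1
  have hone : δ η₁ * ∏ η ∈ OH \ {ξ}, δ η ≤ D := by
    obtain ⟨η₀, hη₀, hmin₀⟩ := (Oa 1).exists_min_image δ ⟨_, Finset.mem_image_of_mem _ hξOH⟩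
    obtain ⟨θ₀, hθ₀, hθη⟩ := Finset.mem_image.mp hη₀
    obtain ⟨-, h₀, hh₀, hh₀0, rfl⟩ := Finset.mem_filter.mp hθ₀
    set g' := g ^ 1 * h₀ with hg'
    have hg'W : g' ∈ S.W := mul_mem (pow_mem hg 1) hh₀
    have hg'ξ : g' ξ = η₀ := hθη
    have hg'im : OH.image g' = Oa 1 := by
      show OH.image g' = OH.image ⇑(g ^ 1)
      conv_rhs => rw [← hOHim h₀ hh₀ hh₀0, Finset.image_image]
      rfl
    refine le_trans ?_ (hle 1 h1mem)
    rw [← hg'im, Finset.prod_image g'.injective.injOn, ← Finset.prod_sdiff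
      (Finset.singleton_subset_iff.mpr hξOH), Finset.prod_singleton, hg'ξ, mul_comm]
    refine mul_le_mul' (Finset.prod_le_prod (fun _ _ => zero_le) fun η hη => ?_) (hmin _ ?_)
    · have hηOH := (Finset.mem_sdiff.mp hη).1
      have hmemOa : g' η ∈ Oa 1 := by rw [← hg'im]; exact Finset.mem_image_of_mem _ hηOH
      show v (η - ξ) / v ξ ≤ v (g' η - ξ) / v ξ
      refine (div_le_div_iff_of_pos_right hvξ).mpr ?_
      rw [← Galois.valuation_apply_eq (S.W_dec hg'W), map_sub,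
        ← sub_sub_sub_cancel_right (g' η) (g' ξ) ξ]
      refine (v.map_sub _ _).trans (max_le le_rfl ?_)
      rw [hg'ξ]
      exact (div_le_div_iff_of_pos_right hvξ).mp (hmin₀ _ hmemOa)
    · refine Finset.mem_sdiff.mpr ⟨hOaO 1 hη₀, Finset.notMem_singleton.mpr fun h => hξOa 1 h1mem ?_⟩
      rwa [← h]
  set U := (OH \ {ξ}) ∪ (Finset.Ico 1 p).biUnion Oa with hU
  have hUsub : U ⊆ O \ {ξ} := by
    intro η hη
    rcases Finset.mem_union.mp hη with h | h
    · exact Finset.mem_sdiff.mpr ⟨(Finset.mem_filter.mp (Finset.mem_sdiff.mp h).1).1,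
        (Finset.mem_sdiff.mp h).2⟩
    · obtain ⟨a, ha, hηa⟩ := Finset.mem_biUnion.mp h
      exact Finset.mem_sdiff.mpr ⟨hOaO a hηa, Finset.notMem_singleton.mpr fun h =>
        hξOa a ha (h ▸ hηa)⟩
  have hdisj : Disjoint (OH \ {ξ}) ((Finset.Ico 1 p).biUnion Oa) := by
    rw [Finset.disjoint_left]
    intro η hη hb
    obtain ⟨a, ha, hηa⟩ := Finset.mem_biUnion.mp hb
    have h := hOa_eq a 0 η hηa (Finset.mem_image.mpr ⟨η, (Finset.mem_sdiff.mp hη).1, by
      rw [pow_zero]; rfl⟩)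
    rw [Nat.cast_zero, CharP.cast_eq_zero_iff (ZMod p) p] at h
    exact (Nat.le_of_dvd (Finset.mem_Ico.mp ha).1 h).not_gt (Finset.mem_Ico.mp ha).2
  have hpd : ((Finset.Ico 1 p : Finset ℕ) : Set ℕ).PairwiseDisjoint Oa := by
    intro a ha b hb hab
    rw [Function.onFun, Finset.disjoint_left]
    intro η hηa hηb
    refine hab ?_
    have h := hOa_eq a b η hηa hηb
    rwa [ZMod.natCast_eq_natCast_iff', Nat.mod_eq_of_lt (Finset.mem_Ico.mp ha).2,
      Nat.mod_eq_of_lt (Finset.mem_Ico.mp hb).2] at h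
  have hDp : δ η₁ * ∏ η ∈ O \ {ξ}, δ η ≤ D ^ p := by
    rw [← Finset.prod_sdiff hUsub, mul_left_comm]
    refine (mul_le_of_le_one_left' (Finset.prod_le_one' fun η hη =>
      hδ η (Finset.mem_sdiff.mp (Finset.mem_sdiff.mp hη).1).1)).trans ?_
    rw [hU, Finset.prod_union hdisj, Finset.prod_biUnion hpd, ← mul_assoc,
      show D ^ p = D * D ^ (p - 1) by rw [← pow_succ', Nat.sub_add_cancel hpp.one_le]]
    refine mul_le_mul' hone ?_
    exact (Finset.prod_le_prod (fun _ _ => zero_le) hle).trans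
      (by rw [Finset.prod_const, Nat.card_Ico])
  obtain ⟨hη₁O, hη₁ne⟩ := Finset.mem_sdiff.mp hη₁
  have hram := X.ram_bound S.hA hp hη₁O (Finset.notMem_singleton.mp hη₁ne)
  rw [← hξ, ← hO, ← hv] at hram
  have hscale : v (η₁ - ξ) * ∏ η ∈ O \ {ξ}, v (η - ξ) =
      (δ η₁ * ∏ η ∈ O \ {ξ}, δ η) * v (p : ℚb) := by
    have hcard : (O \ {ξ}).card + 1 = rIdx (L := X.splitFld) hpp S.hA := by
      rw [← card_orbit S.hA, ← hO, ← Finset.card_singleton ξ,
        Finset.card_sdiff_add_card_eq_card (Finset.singleton_subset_iff.mpr (unif_mem_orbit S.hA))]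
    rw [← val_unif_pow S.hA (L := X.splitFld), ← hcard, ← hξ, ← hv, pow_succ']
    simp only [δ, Finset.prod_div_distrib, Finset.prod_const]
    field_simp
  rw [hscale, mul_pow, show v (p : ℚb) ^ p = v (p : ℚb) * v (p : ℚb) ^ (p - 1) by
    rw [← pow_succ', Nat.sub_add_cancel hpp.one_le]] at hram
  have h := le_of_mul_le_mul_right hram (pow_pos (zero_lt_iff.mpr val_p_ne_zero) _)
  refine h.trans ?_
  rw [pow_mul]
  exact pow_le_pow_left₀ zero_le hDp _

end Fermat.Agent.FlatBound
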