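/-
Kummer generators for the characters of `W`.
-/
import Fermat.Agent.FlatBound.Kummer.Break

set_option autoImplicit false
set_option linter.unusedSectionVars false
set_option linter.style.haveILetI false

noncomputable section

namespace Fermat.Agent.FlatBound

open Fermat.Agent.Galois (GQ)

local notation "ℚb" => AlgebraicClosure ℚ

variable {A : ValuationSubring (AlgebraicClosure ℚ)} {p : ℕ} [Fact p.Prime] (S : Setting A p)

/-- `y` generates the extension of `χ`. -/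
structure IsGen (χ : GQ → ZMod p) (y : AlgebraicClosure ℚ) : Prop where
  ne_zero : y ≠ 0
  apply_eq : ∀ σ ∈ S.W, σ y = S.zp ^ (χ σ).val * y

theorem zp_pow_val_add (a b : ZMod p) : S.zp ^ (a + b).val = S.zp ^ a.val * S.zp ^ b.val := by
  rw [ZMod.val_add, ← pow_eq_pow_mod _ S.hzp.pow_eq_one, pow_add]

variable {S} {χ χ' : GQ → ZMod p} {y y' : ℚb}

theorem IsGen.one : IsGen S (fun _ => (0 : ZMod p)) 1 :=
  ⟨one_ne_zero, fun σ _ => by rw [map_one, ZMod.val_zero, pow_zero, mul_one]⟩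

theorem IsGen.congr (h : IsGen S χ y) (he : ∀ σ ∈ S.W, χ σ = χ' σ) : IsGen S χ' y :=
  ⟨h.ne_zero, fun σ hσ => by rw [h.apply_eq σ hσ, he σ hσ]⟩

theorem IsGen.mul (h : IsGen S χ y) (h' : IsGen S χ' y') : IsGen S (χ + χ') (y * y') :=
  ⟨mul_ne_zero h.ne_zero h'.ne_zero, fun σ hσ => by
    rw [map_mul, h.apply_eq σ hσ, h'.apply_eq σ hσ, Pi.add_apply, zp_pow_val_add]; ring⟩

theorem IsGen.inv (h : IsGen S χ y) : IsGen S (-χ) y⁻¹ :=
  ⟨inv_ne_zero h.ne_zero, fun σ hσ => by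
    rw [map_inv₀, h.apply_eq σ hσ, mul_inv]
    congr 1
    refine inv_eq_of_mul_eq_one_left ?_
    rw [Pi.neg_apply, ← zp_pow_val_add, neg_add_cancel, ZMod.val_zero, pow_zero]⟩

theorem IsGen.mul_fixed (h : IsGen S χ y) {b : ℚb} (hb0 : b ≠ 0) (hb : ∀ σ ∈ S.W, σ b = b) :
    IsGen S χ (y * b) :=
  ⟨mul_ne_zero h.ne_zero hb0, fun σ hσ => by
    rw [map_mul, h.apply_eq σ hσ, hb σ hσ, mul_assoc]⟩

theorem IsGen.div_fixed (h : IsGen S χ y) {b : ℚb} (hb0 : b ≠ 0) (hb : ∀ σ ∈ S.W, σ b = b) :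
    IsGen S χ (y / b) := by
  rw [div_eq_mul_inv]
  exact h.mul_fixed (inv_ne_zero hb0) fun σ hσ => by rw [map_inv₀, hb σ hσ]

theorem IsGen.pow_fixed (h : IsGen S χ y) {σ : GQ} (hσ : σ ∈ S.W) : σ (y ^ p) = y ^ p := by
  rw [map_pow, h.apply_eq σ hσ, mul_pow, ← pow_mul, mul_comm _ p, pow_mul, S.hzp.pow_eq_one,
    one_pow, one_mul]

theorem IsGen.unique (h : IsGen S χ y) (h' : IsGen S χ y') {σ : GQ} (hσ : σ ∈ S.W) :
    σ (y' / y) = y' / y := by
  rw [map_div₀, h.apply_eq σ hσ, h'.apply_eq σ hσ,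
    mul_div_mul_left _ _ (pow_ne_zero _ (S.hzp.ne_zero (Fact.out : p.Prime).ne_zero))]

theorem IsGen.addOn (h : IsGen S χ y) : AddOnW S χ := by
  intro a ha b hb
  haveI : NeZero p := ⟨(Fact.out : p.Prime).ne_zero⟩
  have h1 := h.apply_eq (a * b) (mul_mem ha hb)
  rw [AlgEquiv.mul_apply, h.apply_eq b hb, map_mul, map_pow, S.W_fix_zp ha, h.apply_eq a ha,
    ← mul_assoc, ← zp_pow_val_add] at h1
  have h2 := S.hzp.pow_inj (ZMod.val_lt _) (ZMod.val_lt _) (mul_right_cancel₀ h.ne_zero h1)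
  rw [← ZMod.val_injective p h2, add_comm]

variable (S) {M : Type} [AddCommGroup M] [Finite M] [DistribMulAction GQ M]

theorem exists_isGen (X : Chart A M) (hadd : AddOnW S χ)
    (hker : ∀ σ ∈ S.W, (∀ x : M, σ • x = x) → χ σ = 0) : ∃ y, IsGen S χ y := by
  classical
  haveI : NeZero p := ⟨(Fact.out : p.Prime).ne_zero⟩
  set K := X.splitFld with hK
  let emb : GQ → (K →ₐ[ℚ] ℚb) := fun σ => (σ : ℚb →ₐ[ℚ] ℚb).comp K.val
  set E := Finset.univ.filter fun s : K →ₐ[ℚ] ℚb => ∃ σ ∈ S.W, emb σ = s with hE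
  have hmem : ∀ s, s ∈ E ↔ ∃ σ ∈ S.W, emb σ = s := fun s => by simp [hE]
  choose! g hgW hgs using fun s (hs : s ∈ E) => (hmem s).mp hs
  have hχ : ∀ σ ∈ S.W, ∀ τ ∈ S.W, emb σ = emb τ → χ σ = χ τ := by
    intro σ hσ τ hτ he
    have h := hker _ (mul_mem (inv_mem hσ) hτ) (X.fix_iff.mp fun i x => by
      have h1 : σ (X.B i x) = τ (X.B i x) := DFunLike.congr_fun he ⟨_, X.value_mem i x⟩
      rw [AlgEquiv.mul_apply, ← h1]
      exact σ.symm_apply_apply _)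
    rw [hadd _ (inv_mem hσ) _ hτ, hadd.inv hσ, neg_add_eq_zero] at h
    exact h
  let val : K → ℚb := fun x => ∑ s ∈ E, S.zp ^ (-χ (g s)).val * s x
  obtain ⟨x, hx⟩ : ∃ x, val x ≠ 0 := by
    by_contra hc
    push Not at hc
    have hli := (linearIndependent_monoidHom K ℚb).comp
      (fun s : K →ₐ[ℚ] ℚb => (s : K →* ℚb)) fun a b hab => AlgHom.ext fun z => DFunLike.congr_fun hab z
    have h0 := linearIndependent_iff'.mp hli E (fun s => S.zp ^ (-χ (g s)).val) (by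
      funext z
      simpa [Finset.sum_apply, Pi.smul_apply] using hc z)
    have h1 : emb 1 ∈ E := (hmem _).mpr ⟨1, one_mem _, rfl⟩
    exact pow_ne_zero _ (S.hzp.ne_zero (Fact.out : p.Prime).ne_zero) (h0 _ h1)
  refine ⟨val x, hx, fun σ hσ => ?_⟩
  have hmaps : ∀ s ∈ E, (σ : ℚb →ₐ[ℚ] ℚb).comp s ∈ E := fun s hs =>
    (hmem _).mpr ⟨σ * g s, mul_mem hσ (hgW s hs), by
      conv_rhs => rw [← hgs s hs]
      rfl⟩
  have himg : E.image (fun s => (σ : ℚb →ₐ[ℚ] ℚb).comp s) = E := by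
    refine Finset.eq_of_subset_of_card_le (Finset.image_subset_iff.mpr hmaps) (le_of_eq ?_)
    rw [Finset.card_image_of_injective]
    exact fun a b hab => AlgHom.ext fun z => σ.injective (DFunLike.congr_fun hab z)
  simp only [val, map_sum, map_mul, map_pow, S.W_fix_zp hσ, Finset.mul_sum]
  conv_rhs => rw [← himg]
  rw [Finset.sum_image fun a _ b _ hab => AlgHom.ext fun z => σ.injective (DFunLike.congr_fun hab z)]
  refine Finset.sum_congr rfl fun s hs => ?_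
  rw [← mul_assoc, ← zp_pow_val_add,
    hχ (g ((σ : ℚb →ₐ[ℚ] ℚb).comp s)) (hgW _ (hmaps s hs)) (σ * g s) (mul_mem hσ (hgW s hs)) (by
      rw [hgs _ (hmaps s hs)]
      conv_lhs => rw [← hgs s hs]
      rfl),
    hadd σ hσ _ (hgW s hs), show χ σ + -(χ σ + χ (g s)) = -χ (g s) by ring]
  rfl

end Fermat.Agent.FlatBound
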