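/-
The characters of a flat module are little ramified: they have generators congruent to one modulo `p`.
-/
import Fermat.Agent.FlatBound.Kummer.Rep

set_option autoImplicit false
set_option linter.unusedSectionVars false
set_option linter.style.haveILetI false

noncomputable section

namespace Fermat.Agent.FlatBound

open Fermat.Agent.Galois (GQ)

local notation "ℚb" => AlgebraicClosure ℚ

variable {A : ValuationSubring (AlgebraicClosure ℚ)} {p : ℕ} [Fact p.Prime]

/-- The binomial error. -/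
theorem val_one_add_pow_sub (hp : p.Prime) {t : ℚb} (ht : A.valuation t ≤ 1) :
    A.valuation ((1 + t) ^ p - 1 - t ^ p) ≤ A.valuation (p : ℚb) * A.valuation t := by
  obtain ⟨n, hn⟩ : ∃ n, p = n + 2 := ⟨p - 2, by have := hp.two_le; omega⟩
  have h : (1 + t) ^ p - 1 - t ^ p =
      ∑ i ∈ Finset.range (n + 1), (p.choose (i + 1) : ℚb) * t ^ (i + 1) := by
    rw [add_comm 1 t, add_pow, hn, Finset.sum_range_succ, Finset.sum_range_succ']
    simp only [one_pow, mul_one, pow_zero, Nat.choose_zero_right, Nat.cast_one, Nat.choose_self]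
    rw [Finset.sum_congr rfl fun i _ => mul_comm (t ^ (i + 1)) _]
    ring
  rw [h]
  refine A.valuation.map_sum_le fun i hi => ?_
  rw [map_mul, map_pow]
  obtain ⟨c, hc⟩ := hp.dvd_choose_self (k := i + 1) (Nat.succ_ne_zero i) (by
    rw [Finset.mem_range] at hi; omega)
  rw [hc, Nat.cast_mul, map_mul, mul_assoc]
  refine mul_le_mul' le_rfl ((mul_le_of_le_one_left' ((A.valuation_le_one_iff _).mpr
    (natCast_mem A c))).trans ?_)
  rw [pow_succ']
  exact mul_le_of_le_one_right' (pow_le_one₀ zero_le ht)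

variable {S : Setting A p} {M : Type} [AddCommGroup M] [Finite M] [DistribMulAction GQ M]
  {χ : GQ → ZMod p} {y : ℚb}

/-- Moving the extension. -/
theorem IsGen.val_div_sub_one_le (hy : IsGen S χ y) {g : GQ} (hg : g ∈ S.W) (hχg : χ g = 1)
    {w c : ℚb} (hyw : y = w + c) (hc : ∀ σ ∈ S.W, σ c = c) (hw : w ≠ 0) {j : ℕ} (hj : ¬ p ∣ j)
    (hwj : A.valuation w ^ p = A.valuation S.pi ^ j) {x : ℚb} (hx0 : x ≠ 0)
    (hx : ∀ h ∈ S.W, χ h = 0 → h x = x) :
    A.valuation (g x / x - 1) ≤ A.valuation (g w - w) / A.valuation w := by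
  classical
  have hp : p.Prime := Fact.out
  haveI : NeZero p := ⟨hp.ne_zero⟩
  have hadd := hy.addOn
  set v := A.valuation with hv
  have hgy : g y = S.zp * y := by
    rw [hy.apply_eq g hg, hχg, ZMod.val_one, pow_one]
  have hz0 : S.zp ≠ 0 := S.hzp.ne_zero hp.ne_zero
  let b : ℕ → ℚb := fun l => (∑ a ∈ Finset.range p, S.zp⁻¹ ^ (l * a) * (g ^ a) x) / (p * y ^ l)
  have hbfix : ∀ l, ∀ σ ∈ S.W, σ (b l) = b l := by
    intro l
    have h0 : ∀ h ∈ S.W, χ h = 0 → h (b l) = b l := by
      intro h hh h0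
      simp only [b, map_div₀, map_sum, map_mul, map_pow, map_inv₀, map_natCast, S.W_fix_zp hh,
        hy.apply_eq h hh, h0, ZMod.val_zero, pow_zero, one_mul]
      congr 1
      refine Finset.sum_congr rfl fun a _ => ?_
      have hm : (g ^ a)⁻¹ * h * g ^ a ∈ S.W := S.conj_mem_W' (pow_mem (S.W_dec hg) a) hh
      have h1 := hx _ hm (by
        rw [hadd _ (mul_mem (inv_mem (pow_mem hg a)) hh) _ (pow_mem hg a),
          hadd _ (inv_mem (pow_mem hg a)) _ hh, h0, hadd.inv (pow_mem hg a)]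
        ring)
      rw [AlgEquiv.mul_apply, AlgEquiv.mul_apply] at h1
      congr 1
      conv_rhs => rw [← h1]
      exact ((g ^ a).apply_symm_apply _).symm
    have hg1 : g (b l) = b l := by
      simp only [b, map_div₀, map_sum, map_mul, map_pow, map_inv₀, map_natCast, S.W_fix_zp hg, hgy]
      have hper : (g ^ p) x = x := hx _ (pow_mem hg p) (by rw [hadd.pow hg, hχg, ZMod.natCast_self, zero_mul])
      have hshift := Finset.sum_range_succ' (fun a => S.zp⁻¹ ^ (l * a) * (g ^ a) x) p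
      rw [Finset.sum_range_succ, mul_zero, pow_zero, pow_zero, hper,
        show S.zp⁻¹ ^ (l * p) = 1 by rw [inv_pow, mul_comm, pow_mul, S.hzp.pow_eq_one, one_pow, inv_one],
        show (1 : GQ) x = x from rfl] at hshift
      rw [add_right_cancel hshift, mul_pow, div_eq_div_iff
        (mul_ne_zero (Nat.cast_ne_zero.mpr hp.ne_zero)
          (mul_ne_zero (pow_ne_zero _ hz0) (pow_ne_zero _ hy.ne_zero)))
        (mul_ne_zero (Nat.cast_ne_zero.mpr hp.ne_zero) (pow_ne_zero _ hy.ne_zero)),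
        Finset.sum_mul, Finset.sum_mul]
      refine Finset.sum_congr rfl fun a _ => ?_
      rw [mul_add, mul_one, pow_add, pow_succ', AlgEquiv.mul_apply]
      have : S.zp⁻¹ ^ l * S.zp ^ l = 1 := by rw [← mul_pow, inv_mul_cancel₀ hz0, one_pow]
      linear_combination (-(S.zp⁻¹ ^ (l * a) * g ((g ^ a) x) * (p : ℚb) * y ^ l)) * this
    have hga : ∀ a : ℕ, (g ^ a) (b l) = b l := fun a => by
      induction a with
      | zero => rfl
      | succ a ih => rw [pow_succ, AlgEquiv.mul_apply, hg1, ih]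
    intro σ hσ
    set a := (χ σ).val
    have h := h0 ((g ^ a)⁻¹ * σ) (mul_mem (inv_mem (pow_mem hg a)) hσ) (by
      rw [hadd _ (inv_mem (pow_mem hg a)) _ hσ, hadd.inv (pow_mem hg a), hadd.pow hg, hχg, mul_one,
        ZMod.natCast_zmod_val, neg_add_cancel])
    rw [AlgEquiv.mul_apply] at h
    conv_rhs => rw [← hga a, ← h]
    exact ((g ^ a).apply_symm_apply _).symm
  have hexp : x = ∑ l ∈ Finset.range p, b l * y ^ l := by
    have h : ∀ l, b l * y ^ l = (∑ a ∈ Finset.range p, (S.zp⁻¹ ^ a) ^ l * (g ^ a) x) / p := fun l => by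
      simp only [b, ← pow_mul, mul_comm l]
      rw [div_mul_eq_mul_div, mul_div_mul_right _ _ (pow_ne_zero _ hy.ne_zero)]
    simp only [h, ← Finset.sum_div]
    rw [Finset.sum_comm, Finset.sum_eq_single 0]
    · simp only [pow_zero, one_pow, one_mul, AlgEquiv.one_apply, Finset.sum_const, Finset.card_range,
        nsmul_eq_mul]
      rw [mul_div_cancel_left₀ _ (Nat.cast_ne_zero.mpr hp.ne_zero)]
    · intro a ha ha0
      rw [← Finset.sum_mul, geom_sum_eq, show (S.zp⁻¹ ^ a) ^ p = 1 by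
        rw [← pow_mul, mul_comm, pow_mul, inv_pow, S.hzp.pow_eq_one, inv_one, one_pow]]
      · simp
      · rw [inv_pow, inv_eq_one.ne]
        exact S.hzp.pow_ne_one_of_pos_of_lt ha0 (Finset.mem_range.mp ha)
    · intro h; exact absurd (Finset.mem_range.mpr hp.pos) h
  let b' : ℕ → ℚb := fun m => ∑ l ∈ Finset.range p, b l * ((l.choose m : ℚb) * c ^ (l - m))
  have hb'fix : ∀ m, ∀ σ ∈ S.W, σ (b' m) = b' m := fun m σ hσ => by
    simp only [b', map_sum, map_mul, map_pow, map_natCast, hbfix _ σ hσ, hc σ hσ]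
  have hexp' : x = ∑ m ∈ Finset.range p, b' m * w ^ m := by
    rw [hexp]
    simp only [b', Finset.sum_mul]
    rw [Finset.sum_comm]
    refine Finset.sum_congr rfl fun l hl => ?_
    rw [hyw, add_pow, Finset.mul_sum, Finset.sum_subset (Finset.range_mono (Finset.mem_range.mp hl))
      fun m _ hm => by
        rw [Nat.choose_eq_zero_of_lt (by simpa using hm)]; simp]
    exact Finset.sum_congr rfl fun m _ => by ring
  -- the terms have distinct valuations
  obtain ⟨m₀, hm₀, hmax⟩ := (Finset.range p).exists_max_image (fun m => v (b' m * w ^ m))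
    ⟨0, Finset.mem_range.mpr hp.pos⟩
  have hvx : v x = v (b' m₀ * w ^ m₀) := by
    rw [hexp']
    have hne : v (b' m₀ * w ^ m₀) ≠ 0 := fun h0 => hx0 (by
      rw [hexp']
      refine Finset.sum_eq_zero fun m hm => (_root_.map_eq_zero v).mp ?_
      exact le_antisymm ((hmax m hm).trans h0.le) zero_le)
    refine v.map_sum_eq_of_lt hm₀ fun m hm => lt_of_le_of_ne (hmax m (Finset.mem_sdiff.mp hm).1) ?_
    intro heq
    rcases eq_or_ne (b' m) 0 with h0 | h0
    · rw [h0, zero_mul, map_zero] at heq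
      exact hne heq.symm
    have h0' : b' m₀ ≠ 0 := fun h => hne (by rw [h, zero_mul, map_zero])
    obtain ⟨k, hk⟩ := S.exists_val_eq (hb'fix m) h0
    obtain ⟨k', hk'⟩ := S.exists_val_eq (hb'fix m₀) h0'
    have h := congrArg (fun t => t ^ p) heq
    rw [← hv] at hk hk'
    simp only [map_mul, map_pow, mul_pow, hk, hk', ← pow_mul] at h
    rw [mul_comm m, mul_comm m₀, pow_mul, pow_mul, hwj, ← pow_mul, ← pow_mul, ← zpow_natCast,
      ← zpow_mul, ← zpow_natCast _ (j * m), ← zpow_natCast _ (p), ← zpow_mul,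
      ← zpow_natCast _ (j * m₀), ← zpow_add₀ S.val_pi_pos.ne', ← zpow_add₀ S.val_pi_pos.ne'] at h
    have h2 := (zpow_right_strictAnti₀ S.val_pi_pos S.val_pi_lt_one).injective h
    have hd : (p : ℤ) ∣ (j : ℤ) * ((m : ℤ) - m₀) := ⟨k' - k, by push_cast at h2; linear_combination h2⟩
    rcases (Nat.prime_iff_prime_int.mp hp).dvd_mul.mp hd with hd | hd
    · exact hj (Int.natCast_dvd_natCast.mp hd)
    · have hm' := Finset.mem_range.mp (Finset.mem_sdiff.mp hm).1
      have hm₀' := Finset.mem_range.mp hm₀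
      have h0'' := Int.eq_zero_of_abs_lt_dvd hd (abs_lt.mpr ⟨by omega, by omega⟩)
      exact (Finset.notMem_singleton.mp (Finset.mem_sdiff.mp hm).2) (by omega)
  have hvw : 0 < v w := zero_lt_iff.mpr ((_root_.map_ne_zero v).mpr hw)
  have hpw : ∀ m, v (g (w ^ m) - w ^ m) ≤ v (g w - w) / v w * v w ^ m := by
    intro m
    induction m with
    | zero => simp
    | succ m ih =>
      rw [show g (w ^ (m + 1)) - w ^ (m + 1) = (g (w ^ m) - w ^ m) * g w + w ^ m * (g w - w) by
        rw [pow_succ, map_mul]; ring]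
      refine (v.map_add _ _).trans (max_le ?_ ?_)
      · rw [map_mul, hv, Galois.valuation_apply_eq (S.W_dec hg), pow_succ, ← mul_assoc]
        exact mul_le_mul' ih le_rfl
      · rw [map_mul, map_pow, pow_succ, ← mul_assoc, mul_comm (v (g w - w) / v w) (v w ^ m),
          mul_assoc, div_mul_cancel₀ _ hvw.ne']
  rw [div_sub_one hx0, map_div₀, div_le_iff₀ (zero_lt_iff.mpr ((_root_.map_ne_zero v).mpr hx0)), hvx]
  conv_lhs => rw [hexp', map_sum, ← Finset.sum_sub_distrib]
  refine v.map_sum_le fun m hm => ?_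
  rw [map_mul, hb'fix m g hg, ← mul_sub, map_mul]
  refine (mul_le_mul' le_rfl (hpw m)).trans ?_
  rw [mul_left_comm, ← map_pow, ← map_mul]
  exact mul_le_mul' le_rfl (hmax m hm)

/-- Characters trivial on a flat module have generators congruent to one modulo `p`. -/
theorem exists_gen_peu (X : Chart A M) (hp' : ∀ x : M, p • x = 0) (hadd : AddOnW S χ)
    (hker : ∀ σ ∈ S.W, (∀ x : M, σ • x = x) → χ σ = 0) :
    ∃ y, IsGen S χ y ∧ A.valuation (y ^ p - 1) ≤ A.valuation (p : ℚb) := by
  classical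
  have hp : p.Prime := Fact.out
  haveI : NeZero p := ⟨hp.ne_zero⟩
  haveI : CharP (IsLocalRing.ResidueField A) p := charP_residue S.hA
  by_cases hzero : ∀ σ ∈ S.W, χ σ = 0
  · exact ⟨1, IsGen.one.congr fun σ hσ => (hzero σ hσ).symm, by simp⟩
  obtain ⟨g₀, hg₀, hg₀χ⟩ : ∃ σ ∈ S.W, χ σ ≠ 0 := by push Not at hzero; exact hzero
  set g := g₀ ^ (χ g₀)⁻¹.val with hgdef
  have hg : g ∈ S.W := pow_mem hg₀ _
  have hχg : χ g = 1 := by
    rw [hgdef, hadd.pow hg₀, ZMod.natCast_zmod_val, inv_mul_cancel₀ hg₀χ]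
  obtain ⟨x, hx0, hx, hbreak⟩ := exists_break S X hp' hadd hker hg hχg
  set π := A.valuation S.pi with hπ
  have hp1 : 1 ≤ p - 1 := by have := hp.two_le; omega
  -- the two ways of having a small break
  have hsmall : ∀ {y : ℚb}, IsGen S χ y → ∀ {w c : ℚb}, y = w + c → (∀ σ ∈ S.W, σ c = c) → w ≠ 0 →
      ∀ {j : ℕ}, ¬ p ∣ j → A.valuation w ^ p = π ^ j →
      π ^ tdeg p ≤ (A.valuation (g w - w) / A.valuation w) ^ (p * (p - 1)) := by
    intro y hy w c hyw hc hw j hj hwj
    rw [hπ, S.val_pi_pow]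
    exact hbreak.trans (pow_le_pow_left₀ zero_le (hy.val_div_sub_one_le hg hχg hyw hc hw hj hwj hx0 hx) _)
  obtain ⟨y₀, hy₀⟩ := exists_isGen S X hadd hker
  -- make it a unit
  obtain ⟨m, hm⟩ := S.exists_val_eq (x := y₀ ^ p) (fun σ hσ => hy₀.pow_fixed hσ)
    (pow_ne_zero _ hy₀.ne_zero)
  set y₁ := y₀ / S.pi ^ (m / p) with hy₁def
  have hy₁ : IsGen S χ y₁ := hy₀.div_fixed (zpow_ne_zero _ S.pi_ne_zero) fun σ hσ => by
    rw [map_zpow₀, (S.mem_W.mp hσ).2]
  set j₀ := (m % p).toNat with hj₀def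
  have hj₀ : (j₀ : ℤ) = m % p := Int.toNat_of_nonneg (Int.emod_nonneg _ (by exact_mod_cast hp.ne_zero))
  have hy₁v : A.valuation y₁ ^ p = π ^ j₀ := by
    rw [map_pow] at hm
    rw [hy₁def, map_div₀, div_pow, hm, map_zpow₀, ← hπ, ← zpow_natCast _ p, ← zpow_mul,
      ← zpow_sub₀ S.val_pi_pos.ne', ← zpow_natCast _ j₀, hj₀]
    congr 1
    rw [Int.emod_def]
    ring
  have hj₀0 : j₀ = 0 := by
    by_contra hne
    have hlt : j₀ < p := by
      have := Int.emod_lt_of_pos m (by exact_mod_cast hp.pos : (0 : ℤ) < p)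
      omega
    have h := hsmall hy₁ (c := 0) (add_zero _).symm (fun σ _ => map_zero σ) hy₁.ne_zero
      (fun hd => hne (Nat.eq_zero_of_dvd_of_lt hd hlt)) hy₁v
    rw [show g y₁ - y₁ = (S.zp - 1) * y₁ by
      rw [hy₁.apply_eq g hg, hχg, ZMod.val_one, pow_one]; ring, map_mul,
      mul_div_assoc, div_self ((_root_.map_ne_zero _).mpr hy₁.ne_zero), mul_one, S.val_zp, ← hπ,
      ← pow_mul, hπ, S.pow_le_pow_iff, tdeg_eq, mul_left_comm] at h
    exact absurd h (not_le.mpr (lt_mul_of_one_lt_left (Nat.mul_pos (Nat.succ_pos _) hp1) hp.one_lt))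
  have hy₁1 : A.valuation y₁ = 1 :=
    (pow_eq_one_iff_of_nonneg zero_le hp.ne_zero).mp (by rw [hy₁v, hj₀0, pow_zero])
  obtain ⟨r, hr, hrres⟩ := exists_isRep S.hA (res A (y₁ ^ p))
  obtain ⟨r', hr', hr'p⟩ := hr.exists_root
  have hy₁p : A.valuation (y₁ ^ p) ≤ 1 := by rw [map_pow, hy₁1, one_pow]
  have hlt : A.valuation (y₁ ^ p - r) < 1 := (res_eq_res_iff hy₁p hr.val_le).mp hrres.symm
  have hr1 : A.valuation r = 1 := by
    refine le_antisymm hr.val_le (not_lt.mp fun h => ?_)
    have h2 : A.valuation (y₁ ^ p) < 1 := by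
      rw [← sub_add_cancel (y₁ ^ p) r]
      exact (A.valuation.map_add _ _).trans_lt (max_lt hlt h)
    rw [map_pow, hy₁1, one_pow] at h2
    exact lt_irrefl _ h2
  have hr'0 : r' ≠ 0 := fun h => by
    rw [h, zero_pow hp.ne_zero] at hr'p
    rw [← hr'p, map_zero] at hr1
    exact zero_ne_one hr1
  have key : ∀ j : ℕ, j + 1 ≤ tdeg p → ∃ y, IsGen S χ y ∧ A.valuation (y ^ p - 1) ≤ π ^ (j + 1) := by
    intro j
    induction j with
    | zero =>
      intro _
      have hgen := hy₁.div_fixed hr'0 fun σ hσ => S.fixed_rep hr' hσ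
      refine ⟨_, hgen, S.le_succ_of_lt (m := 0)
        (fun σ hσ => by rw [map_sub, map_one, hgen.pow_fixed hσ]) ?_⟩
      rw [pow_zero, div_pow, hr'p, div_sub_one (fun h => by rw [h, map_zero] at hr1; exact zero_ne_one hr1),
        map_div₀, hr1, div_one]
      exact hlt
    | succ j ih =>
      intro hj
      obtain ⟨y, hy, hle⟩ := ih (by omega)
      by_cases hstrict : A.valuation (y ^ p - 1) ≤ π ^ (j + 1 + 1)
      · exact ⟨y, hy, hstrict⟩
      have hfix : ∀ σ ∈ S.W, σ (y ^ p - 1) = y ^ p - 1 := fun σ hσ => by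
        rw [map_sub, map_one, hy.pow_fixed hσ]
      have hylt : A.valuation (y ^ p - 1) < 1 :=
        hle.trans_lt (pow_lt_one₀ zero_le S.val_pi_lt_one (Nat.succ_ne_zero j))
      by_cases hdvd : p ∣ j + 1
      · obtain ⟨q, hq⟩ := hdvd
        obtain ⟨s, hs, hsle⟩ := S.exists_lead hfix hle
        obtain ⟨s', hs', hs'p⟩ := hs.exists_root
        set t := s' * S.pi ^ q with ht
        have hq0 : q ≠ 0 := fun h => by rw [h, mul_zero] at hq; omega
        have htv : A.valuation t < 1 := by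
          rw [ht, map_mul, map_pow]
          exact (mul_le_of_le_one_left' hs'.val_le).trans_lt (pow_lt_one₀ zero_le S.val_pi_lt_one hq0)
        have hu1 : A.valuation (1 + t) = 1 := A.valuation.map_one_add_of_lt htv
        have hu0 : 1 + t ≠ 0 := fun h => by rw [h, map_zero] at hu1; exact zero_ne_one hu1
        have hufix : ∀ σ ∈ S.W, σ (1 + t) = 1 + t := fun σ hσ => by
          rw [ht, map_add, map_one, map_mul, map_pow, S.fixed_rep hs' hσ, (S.mem_W.mp hσ).2]
        refine ⟨y / (1 + t), hy.div_fixed hu0 hufix, ?_⟩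
        rw [div_pow, div_sub_one (pow_ne_zero _ hu0), map_div₀, map_pow, hu1, one_pow, div_one,
          show y ^ p - (1 + t) ^ p = (y ^ p - 1 - s * S.pi ^ (j + 1)) - ((1 + t) ^ p - 1 - t ^ p) by
            rw [ht, mul_pow, hs'p, ← pow_mul, mul_comm q, ← hq]; ring]
        refine (A.valuation.map_sub _ _).trans (max_le hsle ((val_one_add_pow_sub hp htv.le).trans ?_))
        rw [← S.val_pi_pow, ← hπ]
        exact (mul_le_of_le_one_right' htv.le).trans
          (S.pow_le_pow_iff.mpr hj)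
      · exfalso
        have hv1 : A.valuation (y ^ p - 1) = π ^ (j + 1) := le_antisymm hle (not_lt.mp fun h =>
          hstrict (S.le_succ_of_lt hfix h))
        have hyv : A.valuation y = 1 := (pow_eq_one_iff_of_nonneg zero_le hp.ne_zero).mp (by
          rw [← map_pow]
          have := A.valuation.map_one_add_of_lt hylt
          rwa [add_sub_cancel] at this)
        have hz1 : A.valuation (y - 1) < 1 := by
          rw [← res_eq_res_iff hyv.le (by simp), res_one]
          refine frobenius_inj (IsLocalRing.ResidueField A) p ?_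
          rw [frobenius_def, frobenius_def, ← res_pow hyv.le, one_pow, ← res_one,
            res_eq_res_iff (by rw [map_pow, hyv, one_pow]) (by simp)]
          exact hylt
        have hzp : A.valuation (y - 1) ^ p = π ^ (j + 1) := by
          rw [← hv1, ← map_pow]
          have h := val_one_add_pow_sub hp hz1.le
          rw [add_sub_cancel] at h
          refine A.valuation.map_eq_of_sub_lt ?_
          rw [Valuation.map_sub_swap]
          refine h.trans_lt (lt_of_lt_of_le
            (mul_lt_of_lt_one_right (zero_lt_iff.mpr val_p_ne_zero) hz1) ?_)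
          rw [hv1, ← S.val_pi_pow, ← hπ]
          exact S.pow_le_pow_iff.mpr (by omega)
        have hz0 : y - 1 ≠ 0 := fun h => by
          rw [h, map_zero, zero_pow hp.ne_zero] at hzp
          exact (pow_ne_zero _ S.val_pi_pos.ne') hzp.symm
        have h := hsmall hy (c := 1) (sub_add_cancel y 1).symm (fun σ _ => map_one σ) hz0 hdvd hzp
        rw [show g (y - 1) - (y - 1) = (S.zp - 1) * y by
          rw [map_sub, map_one, hy.apply_eq g hg, hχg, ZMod.val_one, pow_one]; ring, map_mul, hyv,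
          mul_one, S.val_zp, ← hπ, pow_mul, div_pow, hzp, div_pow,
          le_div_iff₀ (pow_pos (pow_pos S.val_pi_pos _) _), ← pow_mul, ← pow_mul, ← pow_mul, ← pow_add,
          hπ, S.pow_le_pow_iff] at h
        have h1 : (j + 1) * (p - 1) < tdeg p * (p - 1) := Nat.mul_lt_mul_of_pos_right hj hp1
        obtain ⟨n, hn⟩ : ∃ n, p = n + 1 := ⟨p - 1, by omega⟩
        rw [tdeg_eq, hn, Nat.add_sub_cancel] at h1 h
        nlinarith
  obtain ⟨y, hy, hle⟩ := key (tdeg p - 1) (by have := S.tdeg_pos; omega)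
  refine ⟨y, hy, ?_⟩
  rwa [Nat.sub_add_cancel S.tdeg_pos, hπ, S.val_pi_pow] at hle

end Fermat.Agent.FlatBound
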