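/-
The filtration of the little ramified characters and their leading terms.
-/
import Fermat.Agent.FlatBound.Kummer.Peu

set_option autoImplicit false
set_option linter.unusedSectionVars false
set_option linter.style.haveILetI false

noncomputable section

namespace Fermat.Agent.FlatBound

open IsLocalRing
open Fermat.Agent.Galois (GQ)

local notation "ℚb" => AlgebraicClosure ℚ

variable {A : ValuationSubring (AlgebraicClosure ℚ)} {p : ℕ} [Fact p.Prime] (S : Setting A p)

/-- `χ` has a generator congruent to one modulo `p π ^ l`, with leading residue `c`. -/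
def HasLead (l : ℕ) (χ : GQ → ZMod p) (c : ResidueField A) : Prop :=
  ∃ y, IsGen S χ y ∧ A.valuation (y ^ p - 1) ≤ A.valuation ((p : ℚb) * S.pi ^ l) ∧
    res A ((y ^ p - 1) / ((p : ℚb) * S.pi ^ l)) = c

/-- Conjugation of characters, twisted by the action on the roots of unity. -/
def twist (s : GQ) (a : ℕ) (χ : GQ → ZMod p) : GQ → ZMod p := fun σ => (a : ZMod p) * χ (s⁻¹ * σ * s)

variable {S}

theorem p_pi_ne_zero (l : ℕ) : (p : ℚb) * S.pi ^ l ≠ 0 :=
  mul_ne_zero (Nat.cast_ne_zero.mpr (Fact.out : p.Prime).ne_zero) (pow_ne_zero _ S.pi_ne_zero)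

theorem val_p_pi (l : ℕ) :
    A.valuation ((p : ℚb) * S.pi ^ l) = A.valuation S.pi ^ (tdeg p + l) := by
  rw [map_mul, map_pow, ← S.val_pi_pow, pow_add]

theorem val_div_le {x d : ℚb} (hd : d ≠ 0) (h : A.valuation x ≤ A.valuation d) :
    A.valuation (x / d) ≤ 1 := by
  rw [map_div₀]
  exact (div_le_one₀ (zero_lt_iff.mpr ((_root_.map_ne_zero _).mpr hd))).mpr h

theorem HasLead.congr {l : ℕ} {χ χ' : GQ → ZMod p} {c : ResidueField A} (h : HasLead S l χ c)
    (he : ∀ σ ∈ S.W, χ σ = χ' σ) : HasLead S l χ' c := by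
  obtain ⟨y, hy, h1, h2⟩ := h
  exact ⟨y, hy.congr he, h1, h2⟩

theorem HasLead.zero (l : ℕ) : HasLead S l (fun _ => 0) 0 :=
  ⟨1, IsGen.one, by simp, by simp [res_zero]⟩

theorem hasLead_of_chart {M : Type} [AddCommGroup M] [Finite M] [DistribMulAction GQ M]
    (X : Chart A M) (hp : ∀ x : M, p • x = 0) {χ : GQ → ZMod p} (hadd : AddOnW S χ)
    (hker : ∀ σ ∈ S.W, (∀ x : M, σ • x = x) → χ σ = 0) : ∃ c, HasLead S 0 χ c := by
  obtain ⟨y, hy, hle⟩ := exists_gen_peu X hp hadd hker
  exact ⟨_, y, hy, by rwa [pow_zero, mul_one], rfl⟩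

theorem val_y_eq_one {l : ℕ} {y : ℚb}
    (h : A.valuation (y ^ p - 1) ≤ A.valuation ((p : ℚb) * S.pi ^ l)) : A.valuation y = 1 := by
  have h1 : A.valuation (y ^ p - 1) < 1 := by
    refine h.trans_lt ?_
    rw [val_p_pi]
    exact pow_lt_one₀ zero_le S.val_pi_lt_one (by have := S.tdeg_pos; omega)
  refine (pow_eq_one_iff_of_nonneg zero_le (Fact.out : p.Prime).ne_zero).mp ?_
  rw [← map_pow]
  have := A.valuation.map_one_add_of_lt h1
  rwa [add_sub_cancel] at this

theorem res_pow_p {l : ℕ} {y : ℚb}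
    (h : A.valuation (y ^ p - 1) ≤ A.valuation ((p : ℚb) * S.pi ^ l)) : res A (y ^ p) = 1 := by
  rw [← res_one (A := A), res_eq_res_iff (by rw [map_pow, val_y_eq_one h, one_pow]) (by simp)]
  refine h.trans_lt ?_
  rw [val_p_pi]
  exact pow_lt_one₀ zero_le S.val_pi_lt_one (by have := S.tdeg_pos; omega)

theorem HasLead.add {l : ℕ} {χ χ' : GQ → ZMod p} {c c' : ResidueField A} (h : HasLead S l χ c)
    (h' : HasLead S l χ' c') : HasLead S l (χ + χ') (c + c') := by
  obtain ⟨y, hy, h1, rfl⟩ := h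
  obtain ⟨y', hy', h1', rfl⟩ := h'
  have hd := p_pi_ne_zero (S := S) l
  have he : (y * y') ^ p - 1 = (y ^ p - 1) * y' ^ p + (y' ^ p - 1) := by rw [mul_pow]; ring
  have hv' : A.valuation (y' ^ p) = 1 := by rw [map_pow, val_y_eq_one h1', one_pow]
  have hle : A.valuation ((y * y') ^ p - 1) ≤ A.valuation ((p : ℚb) * S.pi ^ l) := by
    rw [he]
    exact (A.valuation.map_add _ _).trans (max_le (by rw [map_mul, hv', mul_one]; exact h1) h1')
  refine ⟨y * y', hy.mul hy', hle, ?_⟩
  rw [he, add_div, mul_div_right_comm, res_add ?_ (val_div_le hd h1'),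
    res_mul (val_div_le hd h1) hv'.le, res_pow_p h1', mul_one]
  rw [map_mul, hv', mul_one]
  exact val_div_le hd h1

theorem HasLead.nsmul {l : ℕ} {χ : GQ → ZMod p} {c : ResidueField A} (h : HasLead S l χ c) :
    ∀ n : ℕ, HasLead S l (fun σ => (n : ZMod p) * χ σ) (n * c)
  | 0 => by simpa using HasLead.zero (S := S) l
  | n + 1 => by
    have := (h.nsmul n).add h
    simp only [Nat.cast_succ, add_one_mul]
    exact this.congr fun σ _ => rfl

theorem HasLead.twist {l : ℕ} {χ : GQ → ZMod p} {c : ResidueField A} (h : HasLead S l χ c) {s : GQ}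
    (hs : s ∈ A.decompositionSubgroup ℚ) {a k : ℕ} (ha : s S.zp = S.zp ^ a)
    (hk : s S.pi = S.z ^ k * S.pi) :
    HasLead S l (FlatBound.twist s a χ)
      (res A S.z ^ (k * l) * ((⟨s, hs⟩ : A.decompositionSubgroup ℚ) • c)) := by
  obtain ⟨y, hy, h1, rfl⟩ := h
  have hd := p_pi_ne_zero (S := S) l
  have hgen : IsGen S (FlatBound.twist s a χ) (s y) := by
    refine ⟨(_root_.map_ne_zero s).mpr hy.ne_zero, fun σ hσ => ?_⟩
    haveI : NeZero p := ⟨(Fact.out : p.Prime).ne_zero⟩
    have h2 := hy.apply_eq _ (S.conj_mem_W' hs hσ)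
    rw [AlgEquiv.mul_apply, AlgEquiv.mul_apply] at h2
    calc σ (s y) = s (s⁻¹ (σ (s y))) := (s.apply_symm_apply _).symm
      _ = S.zp ^ (FlatBound.twist s a χ σ).val * s y := by
        rw [h2, map_mul, map_pow, ha, ← pow_mul]
        congr 1
        rw [pow_eq_pow_mod _ S.hzp.pow_eq_one, FlatBound.twist, ZMod.val_mul, ZMod.val_natCast,
          Nat.mod_mul_mod]
  have hle : A.valuation (s y ^ p - 1) ≤ A.valuation ((p : ℚb) * S.pi ^ l) := by
    rw [← map_pow, ← map_one s, ← map_sub, Galois.valuation_apply_eq hs]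
    exact h1
  refine ⟨s y, hgen, hle, ?_⟩
  have hzv := val_root (A := A) S.tdeg_pos.ne' S.hz.pow_eq_one
  have he : (s y ^ p - 1) / ((p : ℚb) * S.pi ^ l) =
      S.z ^ (k * l) * s ((y ^ p - 1) / ((p : ℚb) * S.pi ^ l)) := by
    have hz0 : S.z ^ (k * l) ≠ 0 := pow_ne_zero _ (S.hz.ne_zero S.tdeg_pos.ne')
    rw [map_div₀, map_sub, map_pow, map_one, map_mul, map_natCast, map_pow, hk, mul_pow, ← pow_mul,
      mul_left_comm, ← mul_div_assoc, mul_div_mul_left _ _ hz0]
  rw [he, res_mul (by rw [map_pow, hzv, one_pow]) (by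
      rw [Galois.valuation_apply_eq hs]; exact val_div_le hd h1), res_pow hzv.le,
    res_apply hs (val_div_le hd h1)]

/-- A congruence of `p`-th powers of numbers fixed by `W` improves itself away from level one. -/
theorem pow_gap {l : ℕ} (hl : l ≤ p) (hl1 : l ≠ 1) {b : ℚb} (hb : ∀ σ ∈ S.W, σ b = b)
    (h : A.valuation (b ^ p - 1) ≤ A.valuation ((p : ℚb) * S.pi ^ l)) :
    A.valuation (b ^ p - 1) < A.valuation ((p : ℚb) * S.pi ^ l) := by
  have hp : p.Prime := Fact.out
  have hp3 := S.hp3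
  rw [val_p_pi] at h ⊢
  have hbv : A.valuation b = 1 := val_y_eq_one (S := S) (l := l) (by rw [val_p_pi]; exact h)
  have hb1 : A.valuation (b - 1) < 1 := by
    haveI : CharP (ResidueField A) p := charP_residue S.hA
    rw [← res_eq_res_iff hbv.le (by simp), res_one]
    refine frobenius_inj (ResidueField A) p ?_
    rw [frobenius_def, frobenius_def, ← res_pow hbv.le, one_pow,
      res_pow_p (S := S) (l := l) (by rw [val_p_pi]; exact h)]
  rcases eq_or_ne (b - 1) 0 with h0 | h0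
  · rw [sub_eq_zero.mp h0, one_pow, sub_self, map_zero]
    exact pow_pos S.val_pi_pos _
  have hbin := val_one_add_pow_sub hp (t := b - 1) hb1.le
  rw [add_sub_cancel] at hbin
  obtain ⟨m, hm⟩ := S.exists_val_eq (x := b - 1)
    (fun σ hσ => by rw [map_sub, map_one, hb σ hσ]) h0
  have hm0 : 0 < m := by
    rw [hm, ← zpow_zero (A.valuation S.pi)] at hb1
    exact (zpow_right_strictAnti₀ S.val_pi_pos S.val_pi_lt_one).lt_iff_gt.mp hb1
  obtain ⟨n, rfl⟩ : ∃ n : ℕ, m = n := ⟨m.toNat, (Int.toNat_of_nonneg hm0.le).symm⟩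
  have hn0 : 0 < n := by exact_mod_cast hm0
  rw [zpow_natCast] at hm
  rw [← S.val_pi_pow, hm, ← pow_add] at hbin
  have hsq := tdeg_add_one hp.one_lt.le
  by_cases hcase : n * p < tdeg p + n
  · have hv : A.valuation (b ^ p - 1) = A.valuation S.pi ^ (n * p) := by
      rw [pow_mul, ← hm, ← map_pow]
      refine A.valuation.map_eq_of_sub_lt (hbin.trans_lt ?_)
      rw [map_pow, hm, ← pow_mul]
      exact S.pow_lt_pow_iff.mpr hcase
    rw [hv] at h ⊢
    rw [S.pow_le_pow_iff] at h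
    refine S.pow_lt_pow_iff.mpr (lt_of_le_of_ne h fun he => ?_)
    have hnp : n ≤ p := by
      by_contra hc
      push Not at hc
      have h1 : p * (p + 1) ≤ p * n := Nat.mul_le_mul le_rfl hc
      have h2 : (p - 1) * n + n = n * p := by
        rw [← Nat.succ_mul, Nat.succ_eq_add_one, Nat.sub_add_cancel hp.one_le, mul_comm]
      have h3 : (p - 1) * (p + 1) ≤ (p - 1) * n := Nat.mul_le_mul le_rfl hc
      rw [tdeg_eq, mul_comm (p + 1)] at hcase
      omega
    have h1 : n * p ≤ p * p := Nat.mul_le_mul hnp le_rfl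
    have hl0 : l = 0 := by omega
    rw [hl0, add_zero] at he
    exact not_dvd_tdeg hp ⟨n, by rw [he, mul_comm]⟩
  · push Not at hcase
    have hle : A.valuation ((b - 1) ^ p) ≤ A.valuation S.pi ^ (tdeg p + n) := by
      rw [map_pow, hm, ← pow_mul]
      exact S.pow_le_pow_iff.mpr hcase
    have hle2 : A.valuation (b ^ p - 1) ≤ A.valuation S.pi ^ (tdeg p + n) := by
      rw [← sub_add_cancel (b ^ p - 1) ((b - 1) ^ p)]
      exact (A.valuation.map_add _ _).trans (max_le hbin hle)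
    refine hle2.trans_lt (S.pow_lt_pow_iff.mpr ?_)
    have hnp : p < n := by
      by_contra hc
      push Not at hc
      have h1 : n * p ≤ n + (p - 1) * p := by
        have h2 : (p - 1) * n + n = n * p := by
          rw [← Nat.succ_mul, Nat.succ_eq_add_one, Nat.sub_add_cancel hp.one_le, mul_comm]
        have h3 : (p - 1) * n ≤ (p - 1) * p := Nat.mul_le_mul le_rfl hc
        omega
      have h4 : (p - 1) * p + p = p * p := by
        rw [← Nat.succ_mul, Nat.succ_eq_add_one, Nat.sub_add_cancel hp.one_le]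
      omega
    omega

theorem HasLead.unique {l : ℕ} (hl : l ≤ p) (hl1 : l ≠ 1) {χ : GQ → ZMod p} {c c' : ResidueField A}
    (h : HasLead S l χ c) (h' : HasLead S l χ c') : c = c' := by
  obtain ⟨y, hy, h1, rfl⟩ := h
  obtain ⟨y', hy', h1', rfl⟩ := h'
  have hd := p_pi_ne_zero (S := S) l
  set b := y' / y with hb
  have hbv : A.valuation (b ^ p) = 1 := by
    rw [hb, map_pow, map_div₀, val_y_eq_one h1, val_y_eq_one h1', div_one, one_pow]
  have he : y' ^ p - 1 = (y ^ p - 1) * b ^ p + (b ^ p - 1) := by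
    rw [hb, div_pow, sub_mul, mul_div_cancel₀ _ (pow_ne_zero _ hy.ne_zero)]; ring
  have hble : A.valuation (b ^ p - 1) ≤ A.valuation ((p : ℚb) * S.pi ^ l) := by
    rw [show b ^ p - 1 = (y' ^ p - 1) - (y ^ p - 1) * b ^ p by rw [he]; ring]
    refine (A.valuation.map_sub _ _).trans (max_le h1' ?_)
    rw [map_mul, hbv, mul_one]
    exact h1
  have hlt := pow_gap hl hl1 (fun σ hσ => hy.unique hy' hσ) hble
  have h0 : res A ((b ^ p - 1) / ((p : ℚb) * S.pi ^ l)) = 0 := by
    rw [res_eq_zero_iff (val_div_le hd hble), map_div₀,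
      div_lt_one₀ (zero_lt_iff.mpr ((_root_.map_ne_zero _).mpr hd))]
    exact hlt
  rw [he, add_div, mul_div_right_comm, res_add ?_ (val_div_le hd hble),
    res_mul (val_div_le hd h1) hbv.le, res_pow_p hble, mul_one, h0, add_zero]
  rw [map_mul, hbv, mul_one]
  exact val_div_le hd h1

theorem HasLead.succ {l : ℕ} {χ : GQ → ZMod p} (h : HasLead S l χ 0) :
    ∃ c, HasLead S (l + 1) χ c := by
  obtain ⟨y, hy, h1, h2⟩ := h
  refine ⟨_, y, hy, ?_, rfl⟩
  rw [val_p_pi, ← add_assoc]
  refine S.le_succ_of_lt (fun σ hσ => by rw [map_sub, map_one, hy.pow_fixed hσ]) ?_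
  rw [← val_p_pi]
  rw [res_eq_zero_iff (val_div_le (p_pi_ne_zero l) h1), map_div₀,
    div_lt_one₀ (zero_lt_iff.mpr ((_root_.map_ne_zero _).mpr (p_pi_ne_zero l)))] at h2
  exact h2

/-- Level one is absorbed by a `p`-th power. -/
theorem HasLead.absorb {χ : GQ → ZMod p} {c : ResidueField A} (h : HasLead S 1 χ c) :
    ∃ c', HasLead S 2 χ c' := by
  have hp : p.Prime := Fact.out
  have hp3 := S.hp3
  obtain ⟨y, hy, h1, -⟩ := h
  have hsq := tdeg_add_one hp.one_lt.le
  have hfix : ∀ σ ∈ S.W, σ (y ^ p - 1) = y ^ p - 1 := fun σ hσ => by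
    rw [map_sub, map_one, hy.pow_fixed hσ]
  rw [val_p_pi, hsq] at h1
  obtain ⟨r, hr, hrle⟩ := S.exists_lead hfix h1
  obtain ⟨r', hr', hr'p⟩ := hr.exists_root
  set t := r' * S.pi ^ p with ht
  have htle : A.valuation t ≤ A.valuation S.pi ^ p := by
    rw [ht, map_mul, map_pow]
    exact mul_le_of_le_one_left' hr'.val_le
  have htv : A.valuation t < 1 := htle.trans_lt (pow_lt_one₀ zero_le S.val_pi_lt_one hp.ne_zero)
  have hu1 : A.valuation (1 + t) = 1 := A.valuation.map_one_add_of_lt htv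
  have hu0 : 1 + t ≠ 0 := fun h => by rw [h, map_zero] at hu1; exact zero_ne_one hu1
  refine ⟨_, y / (1 + t), hy.div_fixed hu0 (fun σ hσ => by
    rw [ht, map_add, map_one, map_mul, map_pow, S.fixed_rep hr' hσ, (S.mem_W.mp hσ).2]), ?_, rfl⟩
  rw [div_pow, div_sub_one (pow_ne_zero _ hu0), map_div₀, map_pow, hu1, one_pow, div_one,
    show y ^ p - (1 + t) ^ p = (y ^ p - 1 - r * S.pi ^ (p * p)) - ((1 + t) ^ p - 1 - t ^ p) by
      rw [ht, mul_pow, hr'p, ← pow_mul]; ring, val_p_pi]
  refine (A.valuation.map_sub _ _).trans (max_le ?_ ((val_one_add_pow_sub hp htv.le).trans ?_))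
  · rwa [show tdeg p + 2 = p * p + 1 by omega]
  · rw [← S.val_pi_pow]
    refine (mul_le_mul' le_rfl htle).trans ?_
    rw [← pow_add]
    exact S.pow_le_pow_iff.mpr (by omega)

/-- A congruence beyond level `p` is trivial. -/
theorem HasLead.eq_zero_of_top {χ : GQ → ZMod p} {c : ResidueField A} (h : HasLead S (p + 1) χ c)
    {σ : GQ} (hσ : σ ∈ S.W) : χ σ = 0 := by
  have hp : p.Prime := Fact.out
  haveI : NeZero p := ⟨hp.ne_zero⟩
  haveI : CharP (ResidueField A) p := charP_residue S.hA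
  obtain ⟨y, hy, h1, -⟩ := h
  have hyv := val_y_eq_one h1
  have hy1 : A.valuation (y - 1) < 1 := by
    rw [← res_eq_res_iff hyv.le (by simp), res_one]
    refine frobenius_inj (ResidueField A) p ?_
    rw [frobenius_def, frobenius_def, ← res_pow hyv.le, one_pow, res_pow_p h1]
  have hzp0 : S.zp - 1 ≠ 0 := sub_ne_zero.mpr (S.hzp.ne_one hp.one_lt)
  have hz : A.valuation (y - 1) ≤ A.valuation (S.zp - 1) := by
    by_contra hc
    push Not at hc
    have hbin := val_one_add_pow_sub hp hy1.le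
    rw [add_sub_cancel] at hbin
    have hlt : A.valuation (p : ℚb) * A.valuation (y - 1) < A.valuation ((y - 1) ^ p) := by
      have hsplit : ∀ t : A.ValueGroup, t ^ p = t ^ (p - 1) * t := fun t => by
        rw [← pow_succ, Nat.sub_add_cancel hp.one_le]
      rw [map_pow, hsplit, ← S.val_zp_pow]
      exact mul_lt_mul_of_pos_right (pow_lt_pow_left₀ hc zero_le (Nat.sub_ne_zero_of_lt hp.one_lt))
        (zero_le.trans_lt hc)
    have he := A.valuation.map_eq_of_sub_lt (x := (y - 1) ^ p) (hbin.trans_lt hlt)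
    rw [he, map_pow, val_p_pi, tdeg_eq] at h1
    have h2 : A.valuation (y - 1) ^ p ≤ A.valuation (S.zp - 1) ^ p := by
      refine h1.trans (le_of_eq ?_)
      rw [S.val_zp, ← pow_mul]
      congr 1
      rw [← Nat.mul_succ, Nat.succ_eq_add_one, Nat.sub_add_cancel hp.one_le]
    exact not_lt.mpr h2 (pow_lt_pow_left₀ hc zero_le hp.ne_zero)
  set z := (y - 1) / (S.zp - 1) with hzdef
  have hzv : A.valuation z ≤ 1 := val_div_le hzp0 hz
  have hzpv : A.valuation S.zp = 1 := val_root hp.ne_zero S.hzp.pow_eq_one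
  have hqv : A.valuation ((S.zp ^ (χ σ).val - 1) / (S.zp - 1)) ≤ 1 := by
    rw [← geom_sum_mul, mul_div_assoc, div_self hzp0, mul_one]
    exact A.valuation.map_sum_le fun i _ => by rw [map_pow, hzpv, one_pow]
  have he : σ z = z + y * ((S.zp ^ (χ σ).val - 1) / (S.zp - 1)) := by
    rw [hzdef, map_div₀, map_sub, map_sub, map_one, S.W_fix_zp hσ, hy.apply_eq σ hσ]
    ring
  have h2 := res_inertia hσ.1 hzv
  rw [he, res_add hzv (by rw [map_mul, hyv, one_mul]; exact hqv), res_mul hyv.le hqv,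
    S.res_zp_pow_sub, add_eq_left, show res A y = 1 by
      rw [← res_one (A := A), res_eq_res_iff hyv.le (by simp)]; exact hy1, one_mul,
    CharP.cast_eq_zero_iff (ResidueField A) p] at h2
  exact (ZMod.val_eq_zero _).mp (Nat.eq_zero_of_dvd_of_lt h2 (ZMod.val_lt _))

end Fermat.Agent.FlatBound
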