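/-
Little ramified homomorphisms from `W` to a finite field and their components.
-/
import Fermat.Agent.FlatBound.Kummer.Level
import Mathlib.FieldTheory.Finite.Trace

set_option autoImplicit false
set_option linter.unusedSectionVars false
set_option linter.style.haveILetI false

noncomputable section

namespace Fermat.Agent.FlatBound

open IsLocalRing
open Fermat.Agent.Galois (GQ)

local notation "ℚb" => AlgebraicClosure ℚ

variable {A : ValuationSubring (AlgebraicClosure ℚ)} {p : ℕ} [Fact p.Prime] (S : Setting A p)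
  {k : Type} [Field k] [Finite k] [CharP k p]

/-- The trace to the prime field. -/
def tr (p : ℕ) [Fact p.Prime] {k : Type} [Field k] [CharP k p] : k →+ ZMod p :=
  letI := ZMod.algebra k p
  (Algebra.trace (ZMod p) k).toAddMonoidHom

/-- The degree over the prime field. -/
def fdeg (p : ℕ) [Fact p.Prime] (k : Type) [Field k] [CharP k p] : ℕ :=
  letI := ZMod.algebra k p
  Module.finrank (ZMod p) k

theorem natCard_eq_pow : Nat.card k = p ^ fdeg p k := by
  letI := ZMod.algebra k p
  rw [fdeg, Module.natCard_eq_pow_finrank (K := ZMod p), Nat.card_zmod]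

theorem fdeg_pos : 0 < fdeg p k := by
  refine Nat.pos_of_ne_zero fun h => ?_
  have h1 := natCard_eq_pow (p := p) (k := k)
  rw [h, pow_zero] at h1
  exact (Finite.one_lt_card (α := k)).ne' h1

theorem tr_cast (x : k) : ((tr p x).val : k) = ∑ n ∈ Finset.range (fdeg p k), x ^ p ^ n := by
  haveI : NeZero p := ⟨(Fact.out : p.Prime).ne_zero⟩
  letI := ZMod.algebra k p
  rw [ZMod.natCast_val]
  have h := FiniteField.algebraMap_trace_eq_sum_pow (ZMod p) k x
  rw [Nat.card_zmod] at h
  exact h

open scoped Classical in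
/-- The trace detects elements. -/
theorem sum_tr_mul (s : k) :
    letI := Fintype.ofFinite k
    ∑ t : kˣ, ((tr p (s * (t⁻¹ : kˣ))).val : k) * (t : k) = -s := by
  classical
  letI := Fintype.ofFinite k
  have hp : p.Prime := Fact.out
  simp only [tr_cast, Finset.sum_mul]
  rw [Finset.sum_comm, Finset.sum_eq_single 0]
  · simp only [pow_zero, pow_one, mul_assoc]
    rw [← Finset.mul_sum]
    have h : ∀ t : kˣ, ((t⁻¹ : kˣ) : k) * t = ((t : k) ^ 0) := fun t => by
      rw [Units.inv_mul, pow_zero]
    simp only [h]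
    rw [FiniteField.sum_pow_units, if_pos (dvd_zero _), mul_neg_one]
  · intro n hn hn0
    simp only [mul_pow, mul_assoc]
    rw [← Finset.mul_sum]
    have h : ∀ t : kˣ, ((t⁻¹ : kˣ) : k) ^ p ^ n * t = ((t⁻¹ : kˣ) : k) ^ (p ^ n - 1) := fun t => by
      obtain ⟨j, hj⟩ : ∃ j, p ^ n = j + 1 := ⟨p ^ n - 1, (Nat.sub_add_cancel (pow_pos hp.pos n)).symm⟩
      rw [hj, pow_succ, Nat.add_sub_cancel, mul_assoc, Units.inv_mul, mul_one]
    simp only [h]
    rw [Fintype.sum_equiv (Equiv.inv kˣ) (fun t : kˣ => ((t⁻¹ : kˣ) : k) ^ (p ^ n - 1))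
      (fun t : kˣ => ((t ^ (p ^ n - 1) : kˣ) : k)) (fun t => by simp)]
    simp only [Units.val_pow_eq_pow_val]
    rw [FiniteField.sum_pow_units, if_neg, mul_zero]
    intro hd
    have h1 : 1 < p ^ n := Nat.one_lt_pow hn0 hp.one_lt
    have h2 : p ^ n < Fintype.card k := by
      rw [← Nat.card_eq_fintype_card, natCard_eq_pow (p := p) (k := k)]
      exact Nat.pow_lt_pow_right hp.one_lt (Finset.mem_range.mp hn)
    exact absurd (Nat.le_of_dvd (by omega) hd) (by omega)
  · intro h
    exact absurd (Finset.mem_range.mpr fdeg_pos) h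

theorem eq_zero_of_tr {x : k} (h : ∀ t : k, tr p (t * x) = 0) : x = 0 := by
  letI := Fintype.ofFinite k
  have h1 := sum_tr_mul (p := p) x
  rw [Finset.sum_eq_zero fun t _ => by rw [mul_comm x, h, ZMod.val_zero, Nat.cast_zero, zero_mul],
    eq_comm, neg_eq_zero] at h1
  exact h1

/-- The composite of a `k`-valued function with the trace of a multiple. -/
def trc (p : ℕ) [Fact p.Prime] {k : Type} [Field k] [CharP k p] (t : k) (g : GQ → k) :
    GQ → ZMod p := fun σ => tr p (t * g σ)

theorem trc_add (t : k) (g g' : GQ → k) : trc p t (g + g') = trc p t g + trc p t g' :=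
  funext fun σ => by simp [trc, mul_add]

theorem trc_add' (t t' : k) (g : GQ → k) : trc p (t + t') g = trc p t g + trc p t' g :=
  funext fun σ => by simp [trc, add_mul]

theorem trc_smul (t a : k) (g : GQ → k) : trc p t (a • g) = trc p (t * a) g :=
  funext fun σ => by simp [trc, mul_assoc]

theorem tr_natCast_mul (n : ℕ) (x : k) : tr p ((n : k) * x) = (n : ZMod p) * tr p x := by
  rw [← nsmul_eq_mul, map_nsmul, nsmul_eq_mul]

/-- All trace composites of `g` lie at level `l`. -/
def AtLevel (l : ℕ) (g : GQ → k) : Prop := ∀ t : k, ∃ c, HasLead S l (trc p t g) c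

/-- The leading terms of the trace composites. -/
def lam (l : ℕ) (g : GQ → k) (t : k) : ResidueField A :=
  open scoped Classical in if h : ∃ c, HasLead S l (trc p t g) c then h.choose else 0

variable {S} {l : ℕ} {g g' : GQ → k}

theorem AtLevel.hasLead (h : AtLevel S l g) (t : k) : HasLead S l (trc p t g) (lam S l g t) := by
  rw [lam, dif_pos (h t)]
  exact (h t).choose_spec

theorem AtLevel.zero : AtLevel S l (0 : GQ → k) := fun t =>
  ⟨0, (HasLead.zero l).congr fun σ _ => by simp [trc]⟩

theorem AtLevel.add (h : AtLevel S l g) (h' : AtLevel S l g') : AtLevel S l (g + g') := fun t => by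
  rw [trc_add]
  exact ⟨_, (h.hasLead t).add (h'.hasLead t)⟩

theorem AtLevel.smul (h : AtLevel S l g) (a : k) : AtLevel S l (a • g) := fun t => by
  rw [trc_smul]
  exact h _

theorem AtLevel.sum {ι : Type*} (s : Finset ι) {f : ι → GQ → k} (h : ∀ i ∈ s, AtLevel S l (f i)) :
    AtLevel S l (∑ i ∈ s, f i) :=
  Finset.sum_induction _ _ (fun _ _ => AtLevel.add) AtLevel.zero h

theorem AtLevel.congr (h : AtLevel S l g) (he : ∀ σ ∈ S.W, g σ = g' σ) : AtLevel S l g' := fun t =>
  ⟨_, (h.hasLead t).congr fun σ hσ => by simp [trc, he σ hσ]⟩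

variable (hl : l ≤ p) (hl1 : l ≠ 1)

include hl hl1

theorem lam_eq {t : k} (h : AtLevel S l g) {c : ResidueField A} (hc : HasLead S l (trc p t g) c) :
    lam S l g t = c :=
  (h.hasLead t).unique hl hl1 hc

theorem lam_add (h : AtLevel S l g) (h' : AtLevel S l g') (t : k) :
    lam S l (g + g') t = lam S l g t + lam S l g' t :=
  lam_eq hl hl1 (h.add h') (by rw [trc_add]; exact (h.hasLead t).add (h'.hasLead t))

theorem lam_zero (t : k) : lam S l (0 : GQ → k) t = 0 :=
  lam_eq hl hl1 AtLevel.zero ((HasLead.zero l).congr fun σ _ => by simp [trc])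

theorem lam_smul (h : AtLevel S l g) (a t : k) : lam S l (a • g) t = lam S l g (t * a) :=
  lam_eq hl hl1 (h.smul a) (by rw [trc_smul]; exact h.hasLead _)

theorem lam_natCast_mul (h : AtLevel S l g) (n : ℕ) (t : k) :
    lam S l g ((n : k) * t) = n * lam S l g t :=
  lam_eq hl hl1 h (((h.hasLead t).nsmul n).congr fun σ _ => by
    simp only [trc]
    rw [mul_assoc (n : k), tr_natCast_mul])

theorem lam_add' (h : AtLevel S l g) (t t' : k) :
    lam S l g (t + t') = lam S l g t + lam S l g t' :=
  lam_eq hl hl1 h (by rw [trc_add']; exact (h.hasLead t).add (h.hasLead t'))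

omit hl hl1

/-- The components of the leading terms along the powers of the embedding. -/
def comp (S : Setting A p) (ι : k →+* ResidueField A) (l n : ℕ) (g : GQ → k) : ResidueField A :=
  open scoped Classical in
  letI := Fintype.ofFinite k;
  -∑ t : kˣ, lam S l g t * ι ((t⁻¹ : kˣ) : k) ^ p ^ n

variable (ι : k →+* ResidueField A) {n : ℕ}

include hl hl1

theorem comp_add (h : AtLevel S l g) (h' : AtLevel S l g') :
    comp S ι l n (g + g') = comp S ι l n g + comp S ι l n g' := by
  simp only [comp, lam_add hl hl1 h h', add_mul, Finset.sum_add_distrib, neg_add]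

theorem comp_zero : comp S ι l n (0 : GQ → k) = 0 := by
  simp [comp, lam_zero hl hl1]

theorem comp_smul (h : AtLevel S l g) (a : k) :
    comp S ι l n (a • g) = ι a ^ p ^ n * comp S ι l n g := by
  classical
  letI := Fintype.ofFinite k
  rcases eq_or_ne a 0 with rfl | ha
  · rw [zero_smul, comp_zero hl hl1, map_zero,
      zero_pow (pow_ne_zero _ (Fact.out : p.Prime).ne_zero), zero_mul]
  simp only [comp, lam_smul hl hl1 h, mul_neg, Finset.mul_sum]
  congr 1
  refine Fintype.sum_equiv (Equiv.mulRight (Units.mk0 a ha)) _ _ fun t => ?_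
  simp only [Equiv.coe_mulRight, Units.val_mul, Units.val_mk0, mul_inv_rev, Units.val_inv_eq_inv_val]
  rw [map_mul, map_inv₀ ι a, mul_pow, inv_pow]
  have : ι a ^ p ^ n ≠ 0 := pow_ne_zero _ ((_root_.map_ne_zero ι).mpr ha)
  field_simp

theorem comp_sum {J : Type*} (s : Finset J) {f : J → GQ → k} (h : ∀ i ∈ s, AtLevel S l (f i)) :
    comp S ι l n (∑ i ∈ s, f i) = ∑ i ∈ s, comp S ι l n (f i) := by
  classical
  induction s using Finset.induction_on with
  | empty => simp [comp_zero hl hl1]
  | insert a s ha ih =>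
    rw [Finset.sum_insert ha, Finset.sum_insert ha, comp_add hl hl1 ι (h a (Finset.mem_insert_self a s))
      (AtLevel.sum s fun i hi => h i (Finset.mem_insert_of_mem hi)),
      ih fun i hi => h i (Finset.mem_insert_of_mem hi)]

theorem lam_eq_zero_of_comp (h : AtLevel S l g) (h0 : ∀ n < fdeg p k, comp S ι l n g = 0) (t : k) :
    lam S l g t = 0 := by
  classical
  letI := Fintype.ofFinite k
  have h1 : ∑ n ∈ Finset.range (fdeg p k), comp S ι l n g * ι t ^ p ^ n = 0 :=
    Finset.sum_eq_zero fun n hn => by rw [h0 n (Finset.mem_range.mp hn), zero_mul]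
  have h2 : ∑ n ∈ Finset.range (fdeg p k), comp S ι l n g * ι t ^ p ^ n =
      -∑ u : kˣ, ((tr p (t * (u⁻¹ : kˣ))).val : ResidueField A) * lam S l g u := by
    have hcast : ∀ x : k, ((tr p x).val : ResidueField A) =
        ∑ n ∈ Finset.range (fdeg p k), ι x ^ p ^ n := fun x => by
      rw [← map_natCast ι, tr_cast, map_sum]
      simp only [map_pow]
    simp only [comp, neg_mul, Finset.sum_mul, Finset.sum_neg_distrib, hcast, map_mul, mul_pow]
    rw [Finset.sum_comm]
    exact congrArg _ (Finset.sum_congr rfl fun u _ => Finset.sum_congr rfl fun n _ => by ring)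
  have hadd : ∀ (s : Finset kˣ) (f : kˣ → k), lam S l g (∑ u ∈ s, f u) = ∑ u ∈ s, lam S l g (f u) := by
    intro s f
    let L : k →+ ResidueField A := AddMonoidHom.mk' (lam S l g) (lam_add' hl hl1 h)
    exact map_sum L f s
  have h3 : ∑ u : kˣ, ((tr p (t * (u⁻¹ : kˣ))).val : ResidueField A) * lam S l g u =
      lam S l g (-t) := by
    rw [← sum_tr_mul (p := p) t, hadd]
    exact Finset.sum_congr rfl fun u _ => (lam_natCast_mul hl hl1 h _ _).symm
  have h4 : lam S l g (-t) = -lam S l g t :=
    map_neg (AddMonoidHom.mk' (lam S l g) (lam_add' hl hl1 h)) t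
  rw [h2, h3, h4, neg_neg] at h1
  exact h1

end Fermat.Agent.FlatBound
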