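/-
An equivariant space of little ramified homomorphisms from `W` is at most as large as the weights
allow.
-/
import Fermat.Agent.FlatBound.Kummer.Trace
import Fermat.Agent.MCurve.Spec.Coord

set_option autoImplicit false
set_option linter.unusedSectionVars false
set_option linter.style.haveILetI false

noncomputable section

namespace Fermat.Agent.FlatBound

open IsLocalRing
open Fermat.Agent.Galois (GQ)

local notation "ℚb" => AlgebraicClosure ℚ

variable {A : ValuationSubring (AlgebraicClosure ℚ)} {p : ℕ} [Fact p.Prime]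
  {k : Type} [Field k] [Finite k] [CharP k p]

/-- A finite field of characteristic `p` embeds in the residue field. -/
theorem exists_residue_embedding (hA : A.LiesOverPrime p) :
    Nonempty (k →+* ResidueField A) := by
  haveI : CharP (ResidueField A) p := charP_residue hA
  haveI : IsAlgClosed (ResidueField A) := GalRep.Model.residue_isAlgClosed A
  letI := ZMod.algebra k p
  letI := ZMod.algebra (ResidueField A) p
  exact ⟨(IsAlgClosed.lift : k →ₐ[ZMod p] ResidueField A).toRingHom⟩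

/-- The roots of `X ^ card k - X` come from `k`. -/
theorem exists_map_eq_of_pow {F : Type*} [Field F] (ι : k →+* F) {x : F}
    (hx : x ^ Nat.card k = x) : ∃ a, ι a = x := by
  classical
  letI := Fintype.ofFinite k
  rw [Nat.card_eq_fintype_card] at hx
  have hne := FiniteField.X_pow_card_sub_X_ne_zero F (Fintype.one_lt_card (α := k))
  let R := (Polynomial.X ^ Fintype.card k - Polynomial.X : Polynomial F).roots.toFinset
  have hsub : Finset.univ.image ι ⊆ R := by
    intro y hy
    obtain ⟨a, -, rfl⟩ := Finset.mem_image.mp hy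
    simp only [R, Multiset.mem_toFinset, Polynomial.mem_roots hne, Polynomial.IsRoot.def,
      Polynomial.eval_sub, Polynomial.eval_pow, Polynomial.eval_X, ← map_pow, FiniteField.pow_card,
      sub_self]
  have hcard : R.card ≤ (Finset.univ.image ι).card := by
    rw [Finset.card_image_of_injective _ ι.injective, Finset.card_univ]
    refine (Multiset.toFinset_card_le _).trans ((Polynomial.card_roots' _).trans ?_)
    exact (FiniteField.X_pow_card_sub_X_natDegree_eq F (Fintype.one_lt_card (α := k))).le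
  have hxR : x ∈ R := by
    simp [R, Polynomial.mem_roots hne, hx]
  rw [← Finset.eq_of_subset_of_card_le hsub hcard] at hxR
  obtain ⟨a, -, ha⟩ := Finset.mem_image.mp hxR
  exact ⟨a, ha⟩

/-- The `j`-th coordinate. -/
def col {J : Type} (h : GQ → J → k) (j : J) : GQ → k := fun σ => h σ j

variable {J : Type} [Fintype J] [DecidableEq J] (S : Setting A p)

/-- A space of little ramified homomorphisms on `W` with the actions of `τ` and Frobenius. -/
structure Equivariant (H : Submodule k (GQ → J → k)) where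
  Tt : Matrix J J k
  Tf : Matrix J J k
  Tf' : Matrix J J k
  inv : Tf' * Tf = 1
  at_zero : ∀ h ∈ H, ∀ j, AtLevel S 0 (col h j)
  tau_eq : ∀ a : ℕ, S.tau S.zp = S.zp ^ a → ∀ h ∈ H, ∀ σ ∈ S.W,
    (a : k) • h (S.tau⁻¹ * σ * S.tau) = Tt.mulVec (h σ)
  frob_eq : ∀ a : ℕ, S.frob S.zp = S.zp ^ a → ∀ h ∈ H, ∀ σ ∈ S.W,
    (a : k) • h (S.frob⁻¹ * σ * S.frob) = Tf.mulVec (h σ)

/-- The weight condition at level `l` on the vectors `B`. -/
def IsEigen (ι : k →+* ResidueField A) (T : Matrix J J k) (l : ℕ) (B : J → ResidueField A) : Prop :=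
  (T.map ι).mulVec B = res A S.z ^ l • B

variable {S} {H : Submodule k (GQ → J → k)} {l : ℕ} (ι : k →+* ResidueField A)

theorem col_smul (a : k) (h : GQ → J → k) (j : J) : col (a • h) j = a • col h j := rfl

theorem col_sub (h h' : GQ → J → k) (j : J) : col (h - h') j = col h j + (-1 : k) • col h' j :=
  funext fun σ => by simp [col, sub_eq_add_neg]

/-- The leading terms of the transformed homomorphism. -/
theorem comp_mulVec (hl : l ≤ p) (hl1 : l ≠ 1) {h : GQ → J → k} (hlev : ∀ j, AtLevel S l (col h j))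
    {s : GQ} (hs : s ∈ A.decompositionSubgroup ℚ) {a : ℕ} (ha : s S.zp = S.zp ^ a)
    {i : ℕ} (hi : s S.pi = S.z ^ i * S.pi) {T : Matrix J J k}
    (heq : ∀ σ ∈ S.W, (a : k) • h (s⁻¹ * σ * s) = T.mulVec (h σ)) (t : k) (j : J) :
    lam S l (∑ i', T j i' • col h i') t =
      res A S.z ^ (i * l) * ((⟨s, hs⟩ : A.decompositionSubgroup ℚ) • lam S l (col h j) t) := by
  refine lam_eq hl hl1 (AtLevel.sum _ fun i' _ => (hlev i').smul _)
    ((((hlev j).hasLead t).twist hs ha hi).congr fun σ hσ => ?_)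
  have h1 := congrFun (heq σ hσ) j
  simp only [Pi.smul_apply, smul_eq_mul, Matrix.mulVec, dotProduct] at h1
  simp only [twist, trc, col, Finset.sum_apply, Pi.smul_apply, smul_eq_mul]
  rw [← h1, mul_left_comm, tr_natCast_mul]

variable (E : Equivariant S H)

include E

theorem isEigen_comp (hl : l ≤ p) (hl1 : l ≠ 1) {h : GQ → J → k} (hh : h ∈ H)
    (hlev : ∀ j, AtLevel S l (col h j)) :
    IsEigen S ι E.Tt l fun j => comp S ι l 0 (col h j) := by
  classical
  haveI : NeZero p := ⟨(Fact.out : p.Prime).ne_zero⟩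
  obtain ⟨a, -, ha⟩ := S.hzp.eq_pow_of_pow_eq_one
    (show (S.tau S.zp) ^ p = 1 by rw [← map_pow, S.hzp.pow_eq_one, map_one])
  funext j
  have h1 : comp S ι l 0 (∑ i, E.Tt j i • col h i) = ∑ i, ι (E.Tt j i) * comp S ι l 0 (col h i) := by
    rw [comp_sum hl hl1 ι _ fun i _ => (hlev i).smul _]
    exact Finset.sum_congr rfl fun i _ => by rw [comp_smul hl hl1 ι (hlev i), pow_zero, pow_one]
  simp only [Matrix.mulVec, dotProduct, Matrix.map_apply, Pi.smul_apply, smul_eq_mul]
  rw [← h1]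
  simp only [comp, mul_neg, Finset.mul_sum]
  congr 1
  refine Finset.sum_congr rfl fun t _ => ?_
  rw [comp_mulVec hl hl1 hlev S.tau_dec ha.symm (i := 1) (by rw [pow_one, S.tau_pi])
    (E.tau_eq a ha.symm h hh) t j, one_mul, ← mul_assoc]
  congr 2
  have hfix : ∀ {σ : GQ} (hσ : σ ∈ A.decompositionSubgroup ℚ), σ ∈ A.inertiaSubgroupIn ℚ →
      ∀ x : ResidueField A, (⟨σ, hσ⟩ : A.decompositionSubgroup ℚ) • x = x := by
    intro σ hσ hI x
    obtain ⟨τ, hτ, rfl⟩ := hI
    exact RingEquiv.congr_fun (MonoidHom.mem_ker.1 hτ) x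
  exact hfix S.tau_dec S.tau_mem _

/-- Components of proportional leading vectors are proportional. -/
theorem comp_prop (hl : l ≤ p) (hl1 : l ≠ 1) {h h' : GQ → J → k} (hh : h ∈ H) (hh' : h' ∈ H)
    (hlev : ∀ j, AtLevel S l (col h j)) (hlev' : ∀ j, AtLevel S l (col h' j)) {x : ResidueField A}
    (h0 : ∀ j, comp S ι l 0 (col h' j) = x * comp S ι l 0 (col h j)) :
    ∀ n j, comp S ι l n (col h' j) = x ^ p ^ n * comp S ι l n (col h j) := by
  classical
  haveI : NeZero p := ⟨(Fact.out : p.Prime).ne_zero⟩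
  haveI : CharP (ResidueField A) p := charP_residue S.hA
  obtain ⟨a, -, ha⟩ := S.hzp.eq_pow_of_pow_eq_one
    (show (S.frob S.zp) ^ p = 1 by rw [← map_pow, S.hzp.pow_eq_one, map_one])
  obtain ⟨i, -, hi⟩ := S.exists_pi_eq S.frob
  obtain ⟨hdec, hfr⟩ := S.hfrob
  have hrec : ∀ {f : GQ → J → k}, f ∈ H → (∀ j, AtLevel S l (col f j)) → ∀ n j,
      ∑ i', ι (E.Tf j i') ^ p ^ (n + 1) * comp S ι l (n + 1) (col f i') =
        res A S.z ^ (i * l) * comp S ι l n (col f j) ^ p := by
    intro f hf hflev n j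
    have h1 : comp S ι l (n + 1) (∑ i', E.Tf j i' • col f i') =
        ∑ i', ι (E.Tf j i') ^ p ^ (n + 1) * comp S ι l (n + 1) (col f i') := by
      rw [comp_sum hl hl1 ι _ fun i _ => (hflev i).smul _]
      exact Finset.sum_congr rfl fun i _ => by rw [comp_smul hl hl1 ι (hflev i)]
    rw [← h1]
    simp only [comp]
    rw [← frobenius_def p, map_neg, map_sum, mul_neg, Finset.mul_sum]
    congr 1
    refine Finset.sum_congr rfl fun t _ => ?_
    rw [comp_mulVec hl hl1 hflev S.frob_dec ha.symm hi (E.frob_eq a ha.symm f hf) t j,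
      show (⟨S.frob, S.frob_dec⟩ : A.decompositionSubgroup ℚ) • lam S l (col f j) t =
        lam S l (col f j) t ^ p from hfr _, map_mul, frobenius_def, frobenius_def, ← pow_mul,
      ← pow_succ, mul_assoc]
  intro n
  induction n with
  | zero => simpa using h0
  | succ n ih =>
    intro j
    let f : k →+* ResidueField A := (iterateFrobenius (ResidueField A) p (n + 1)).comp ι
    have hf : ∀ c, f c = ι c ^ p ^ (n + 1) := fun c => by simp [f, iterateFrobenius_def]
    set v : J → ResidueField A := fun j =>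
      comp S ι l (n + 1) (col h' j) - x ^ p ^ (n + 1) * comp S ι l (n + 1) (col h j) with hv
    have hTv : (E.Tf.map f).mulVec v = 0 := by
      funext j
      simp only [Matrix.mulVec, dotProduct, Matrix.map_apply, hf, v, mul_sub, Finset.sum_sub_distrib,
        Pi.zero_apply, mul_left_comm _ (x ^ p ^ (n + 1)), ← Finset.mul_sum, hrec hh hlev n j,
        hrec hh' hlev' n j, ih j, mul_pow, ← pow_mul, ← pow_succ]
      ring
    have h2 : (E.Tf'.map f).mulVec ((E.Tf.map f).mulVec v) = v := by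
      rw [Matrix.mulVec_mulVec, ← Matrix.map_mul, E.inv, Matrix.map_one _ (map_zero f) (map_one f),
        Matrix.one_mulVec]
    rw [hTv, Matrix.mulVec_zero] at h2
    exact sub_eq_zero.mp (congrFun h2.symm j)

/-- Without admissible leading vectors the level rises. -/
theorem lam_eq_zero (hl : l ≤ p) (hl1 : l ≠ 1) {h : GQ → J → k} (hh : h ∈ H)
    (hlev : ∀ j, AtLevel S l (col h j)) (h0 : ∀ j, comp S ι l 0 (col h j) = 0) (j : J) (t : k) :
    lam S l (col h j) t = 0 :=
  lam_eq_zero_of_comp hl hl1 ι (hlev j) (fun n _ => by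
    rw [comp_prop ι E hl hl1 hh hh hlev hlev (x := 0) (fun j => by rw [h0 j, zero_mul]) n j,
      zero_pow (pow_ne_zero _ (Fact.out : p.Prime).ne_zero), zero_mul]) t

theorem atLevel_succ (hl : l ≤ p) (hl1 : l ≠ 1) {h : GQ → J → k} (hh : h ∈ H)
    (hlev : ∀ j, AtLevel S l (col h j)) (h0 : ∀ j, comp S ι l 0 (col h j) = 0) (j : J) :
    AtLevel S (l + 1) (col h j) := fun t => by
  have h1 := (hlev j).hasLead t
  rw [lam_eq_zero ι E hl hl1 hh hlev h0 j t] at h1
  exact h1.succ

omit E in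
theorem eq_zero_of_top {h : GQ → J → k} (hlev : ∀ j, AtLevel S (p + 1) (col h j)) {σ : GQ}
    (hσ : σ ∈ S.W) : h σ = 0 :=
  funext fun j => eq_zero_of_tr fun t => ((hlev j).hasLead t).eq_zero_of_top hσ

/-- Climbing through the levels without admissible weight. -/
theorem atLevel_of_le {l₁ : ℕ} (hl₁ : l₁ ≤ p + 1) (hl₁1 : l₁ ≠ 1) {h : GQ → J → k} (hh : h ∈ H)
    {l₀ : ℕ} (hl₀ : l₀ ≤ l₁) (hl₀1 : l₀ ≠ 1) (hlev : ∀ j, AtLevel S l₀ (col h j))
    (hzero : ∀ l, l₀ ≤ l → l < l₁ → l ≠ 1 → (∀ j, AtLevel S l (col h j)) →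
      ∀ j, comp S ι l 0 (col h j) = 0) :
    ∀ j, AtLevel S l₁ (col h j) := by
  have key : ∀ d, l₀ + d ≤ l₁ → ∀ j, AtLevel S (if l₀ + d = 1 then 2 else l₀ + d) (col h j) := by
    intro d
    induction d with
    | zero => intro _ j; simpa [hl₀1] using hlev j
    | succ d ih =>
      intro hd j
      have hprev := ih (by omega)
      by_cases h1 : l₀ + d = 1
      · simp only [h1, if_true] at hprev
        rw [if_neg (by omega), show l₀ + (d + 1) = 2 by omega]
        exact hprev j
      simp only [h1, if_false] at hprev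
      have hs := atLevel_succ ι E (by omega) h1 hh hprev (hzero _ (by omega) (by omega) h1 hprev) j
      by_cases h2 : l₀ + (d + 1) = 1
      · rw [if_pos h2]
        rw [show l₀ + d + 1 = 1 by omega] at hs
        exact fun t => ((hs.hasLead t).absorb)
      · rw [if_neg h2]
        exact hs
  intro j
  have h := key (l₁ - l₀) (by omega) j
  rwa [Nat.add_sub_cancel' hl₀, if_neg hl₁1] at h

/-- No weight is admissible: the space vanishes on `W`. -/
theorem eq_zero_on_W (heig : ∀ l ≤ p, l ≠ 1 → ∀ B, IsEigen S ι E.Tt l B → B = 0)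
    {h : GQ → J → k} (hh : h ∈ H) {σ : GQ} (hσ : σ ∈ S.W) : h σ = 0 := by
  have hp3 := S.hp3
  refine eq_zero_of_top (atLevel_of_le ι E le_rfl (by omega) hh (Nat.zero_le _) zero_ne_one
    (E.at_zero h hh) fun l _ hl hl1 hlev j => ?_) hσ
  exact congrFun (heig l (by omega) hl1 _ (isEigen_comp ι E (by omega) hl1 hh hlev)) j

/-- One weight is admissible, with a line of leading vectors: the space is at most a line on `W`. -/
theorem exists_smul_eq_on_W {l₀ : ℕ} (hl₀ : l₀ ≤ p) (hl₀1 : l₀ ≠ 1) (B₀ : J → ResidueField A)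
    (heig : ∀ l ≤ p, l ≠ 1 → ∀ B, IsEigen S ι E.Tt l B → B ≠ 0 → l = l₀ ∧ ∃ x : ResidueField A, B = x • B₀)
    {h h' : GQ → J → k} (hh : h ∈ H) (hh' : h' ∈ H) (hne : ∃ σ ∈ S.W, h σ ≠ 0) :
    ∃ a : k, ∀ σ ∈ S.W, h' σ = a • h σ := by
  classical
  have hp3 := S.hp3
  have hlow : ∀ {f}, f ∈ H → ∀ j, AtLevel S l₀ (col f j) := fun {f} hf =>
    atLevel_of_le ι E (by omega) hl₀1 hf (Nat.zero_le _) zero_ne_one (E.at_zero f hf)
      fun l _ hl hl1 hlev j => by
        by_contra hB
        exact hl.ne (heig l (by omega) hl1 _ (isEigen_comp ι E (by omega) hl1 hf hlev)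
          fun h0 => hB (congrFun h0 j)).1
  have hkill : ∀ {f}, f ∈ H → (∀ j, comp S ι l₀ 0 (col f j) = 0) → ∀ σ ∈ S.W, f σ = 0 :=
    fun {f} hf h0 σ hσ => eq_zero_of_top (atLevel_of_le ι E le_rfl (by omega) hf
      (by omega) hl₀1 (hlow hf) fun l hle hl hl1 hlev j => by
        by_contra hB
        obtain ⟨rfl, -⟩ := heig l (by omega) hl1 _ (isEigen_comp ι E (by omega) hl1 hf hlev)
          fun h0' => hB (congrFun h0' j)
        exact hB (h0 j)) hσ
  set B := fun j => comp S ι l₀ 0 (col h j) with hB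
  set B' := fun j => comp S ι l₀ 0 (col h' j) with hB'
  have hBne : B ≠ 0 := fun h0 => by
    obtain ⟨σ, hσ, hne⟩ := hne
    exact hne (hkill hh (congrFun h0) σ hσ)
  obtain ⟨x, hx⟩ : ∃ x : ResidueField A, B' = x • B := by
    by_cases h0 : B' = 0
    · exact ⟨0, by rw [h0, zero_smul]⟩
    obtain ⟨-, y, hy⟩ := heig l₀ hl₀ hl₀1 B (isEigen_comp ι E hl₀ hl₀1 hh (hlow hh)) hBne
    obtain ⟨-, y', hy'⟩ := heig l₀ hl₀ hl₀1 B' (isEigen_comp ι E hl₀ hl₀1 hh' (hlow hh')) h0
    have hy0 : y ≠ 0 := fun h => hBne (by rw [hy, h, zero_smul])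
    exact ⟨y' / y, by rw [hy, hy', smul_smul, div_mul_cancel₀ _ hy0]⟩
  have hprop := comp_prop ι E hl₀ hl₀1 hh hh' (hlow hh) (hlow hh') (x := x) (congrFun hx)
  have hper : ∀ f : GQ → J → k, ∀ j, comp S ι l₀ (fdeg p k) (col f j) = comp S ι l₀ 0 (col f j) := by
    intro f j
    letI := Fintype.ofFinite k
    simp only [comp, pow_zero, pow_one]
    congr 1
    refine Finset.sum_congr rfl fun t _ => ?_
    rw [← map_pow, ← natCard_eq_pow, Nat.card_eq_fintype_card, FiniteField.pow_card]
  obtain ⟨j₀, hj₀⟩ := Function.ne_iff.mp hBne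
  have hxq : x ^ Nat.card k = x := by
    rw [natCard_eq_pow (p := p)]
    have h1 := hprop (fdeg p k) j₀
    rw [hper, hper] at h1
    refine mul_right_cancel₀ (b := B j₀) hj₀ ?_
    rw [← h1]
    exact congrFun hx j₀
  obtain ⟨a, rfl⟩ := exists_map_eq_of_pow ι hxq
  refine ⟨a, fun σ hσ => ?_⟩
  have hmem : h' - a • h ∈ H := H.sub_mem hh' (H.smul_mem a hh)
  have h1 := hkill hmem (fun j => by
    rw [col_sub, col_smul, comp_add hl₀ hl₀1 ι (hlow hh' j) (((hlow hh j).smul a).smul _),
      comp_smul hl₀ hl₀1 ι ((hlow hh j).smul a), comp_smul hl₀ hl₀1 ι (hlow hh j)]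
    have h2 := congrFun hx j
    simp only [B', B, Pi.smul_apply, smul_eq_mul] at h2
    simp [h2]) σ hσ
  rw [Pi.sub_apply, sub_eq_zero] at h1
  exact h1

end Fermat.Agent.FlatBound
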